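import Fermat.Agent.MR.Eis.Interface
import Fermat.Agent.INJ.Inst.LocPow

/-!
# MR / Eis [DED]: the elements `g^m z` of a Dedekind domain lie in no prime (task 1330, helper53)
-/

set_option autoImplicit false

namespace Fermat.Agent.MR.Eis

open IsDedekindDomain

/-- a nonzero element `≤ 1` of `ℤᵐ⁰` is `exp (-k)`, `k` a natural number. -/
theorem Ded_exists_nat {x : WithZero (Multiplicative ℤ)} (h0 : x ≠ 0) (h1 : x ≤ 1) :
    ∃ k : ℕ, x = WithZero.exp (-(k : ℤ)) := by
  have hx : WithZero.exp (WithZero.log x) = x := WithZero.exp_log h0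
  have hle : WithZero.log x ≤ 0 := by
    rw [← hx, ← WithZero.exp_zero, WithZero.exp_le_exp] at h1
    exact h1
  refine ⟨(-WithZero.log x).toNat, ?_⟩
  rw [Int.toNat_of_nonneg (by omega), neg_neg, hx]

/-- the general construction: avoid a finite set of primes. -/
theorem Ded_main (R F : Type) [CommRing R] [IsDedekindDomain R] [Field F] [Algebra R F]
    [IsFractionRing R F] (m : ℕ) (z : F) (hm : 0 < m) (hz : z ≠ 0)
    (hord : ∀ P : HeightOneSpectrum R, ∃ n : ℤ, P.valuation F z = WithZero.exp ((m : ℤ) * n))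
    (T : Set (HeightOneSpectrum R)) (hT : T.Finite) :
    ∃ (g : F) (r : R), g ≠ 0 ∧ algebraMap R F r = g ^ m * z ∧ ∀ Q ∈ T, r ∉ Q.asIdeal := by
  classical
  obtain ⟨a, b, hb, hab⟩ := IsFractionRing.div_surjective (A := R) z
  have hb0 : b ≠ 0 := nonZeroDivisors.ne_zero hb
  have hinj := IsFractionRing.injective R F
  have hb0' : algebraMap R F b ≠ 0 := by simpa using hinj.ne hb0
  have ha0' : algebraMap R F a ≠ 0 := by
    intro h
    rw [h, zero_div] at hab
    exact hz hab.symm
  have ha0 : a ≠ 0 := by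
    rintro rfl
    exact ha0' (map_zero _)
  set d : R := a * b with hd
  have hd0 : d ≠ 0 := mul_ne_zero ha0 hb0
  have hd0' : algebraMap R F d ≠ 0 := by simpa using hinj.ne hd0
  have hdz : algebraMap R F d * z = algebraMap R F (a ^ 2) := by
    rw [← hab, hd, map_mul, map_pow]; field_simp
  have hdz' : algebraMap R F d * z⁻¹ = algebraMap R F (b ^ 2) := by
    rw [← hab, hd, map_mul, map_pow]; field_simp
  choose n hn using hord
  have hk : ∀ Q : HeightOneSpectrum R, ∃ k : ℕ,
      Q.valuation F (algebraMap R F d) = WithZero.exp (-(k : ℤ)) := fun Q =>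
    Ded_exists_nat ((Valuation.ne_zero_iff _).2 hd0') (Q.valuation_le_one d)
  choose k hk using hk
  have h1 : ∀ Q, (m : ℤ) * n Q ≤ k Q := by
    intro Q
    have : Q.valuation F (algebraMap R F (a ^ 2)) ≤ 1 := Q.valuation_le_one (a ^ 2)
    rw [← hdz, map_mul, hk, hn, ← WithZero.exp_add, ← WithZero.exp_zero,
      WithZero.exp_le_exp] at this
    omega
  have h2 : ∀ Q, -((m : ℤ) * n Q) ≤ k Q := by
    intro Q
    have : Q.valuation F (algebraMap R F (b ^ 2)) ≤ 1 := Q.valuation_le_one (b ^ 2)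
    rw [← hdz', map_mul, map_inv₀, hk, hn, ← WithZero.exp_neg, ← WithZero.exp_add,
      ← WithZero.exp_zero, WithZero.exp_le_exp] at this
    omega
  have hm' : (1 : ℤ) ≤ m := by exact_mod_cast hm
  have h3 : ∀ Q, 0 ≤ n Q + k Q := by
    intro Q
    have := h2 Q
    by_contra hneg
    rw [not_le] at hneg
    have hk0 : (0 : ℤ) ≤ k Q := Int.natCast_nonneg _
    nlinarith
  have h4 : ∀ Q, k Q = 0 → n Q = 0 := by
    intro Q hQ
    have e1 := h1 Q
    have e2 := h2 Q
    rw [hQ] at e1 e2
    have : (m : ℤ) * n Q = 0 := by simp at e1 e2; omega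
    rcases mul_eq_zero.1 this with h | h
    · omega
    · exact h
  -- the finite set
  have hfin : {Q : HeightOneSpectrum R | k Q ≠ 0}.Finite := by
    refine (Ideal.finite_factors (I := Ideal.span {d}) ?_).subset ?_
    · rw [Ne, Ideal.zero_eq_bot, Ideal.span_singleton_eq_bot]; exact hd0
    · intro Q hQ
      have hQ' : k Q ≠ 0 := hQ
      show Q.asIdeal ∣ Ideal.span {d}
      have e : Q.valuation F (algebraMap R F d) < 1 := by
        rw [hk, ← WithZero.exp_zero, WithZero.exp_lt_exp]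
        omega
      exact (Q.valuation_lt_one_iff_dvd (K := F) d).1 e
  set S : Set (HeightOneSpectrum R) := {Q | k Q ≠ 0} ∪ T with hS
  have hSfin : S.Finite := hfin.union hT
  have : Finite S := hSfin
  obtain ⟨h, hh0, hh⟩ := INJ.Inst.LP.exists_intValuation_eq (ι := S) (fun Q => Q.1)
    Subtype.val_injective (fun Q => (n Q.1 + k Q.1).toNat)
  have hh0' : algebraMap R F h ≠ 0 := by simpa using hinj.ne hh0
  set g : F := algebraMap R F h / algebraMap R F d with hg
  have hg0 : g ≠ 0 := div_ne_zero hh0' hd0'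
  have hvalS : ∀ Q ∈ S, Q.valuation F (g ^ m * z) = 1 := by
    intro Q hQ
    have e := hh ⟨Q, hQ⟩
    simp only at e
    rw [Int.toNat_of_nonneg (h3 Q)] at e
    rw [map_mul, map_pow, hg, map_div₀, HeightOneSpectrum.valuation_of_algebraMap, e, hk, hn,
      ← WithZero.exp_sub, ← WithZero.exp_nsmul, ← WithZero.exp_add, ← WithZero.exp_zero,
      WithZero.exp_inj]
    simp only [nsmul_eq_mul]
    ring
  have hval : ∀ Q : HeightOneSpectrum R, Q.valuation F (g ^ m * z) ≤ 1 := by
    intro Q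
    by_cases hQ : Q ∈ S
    · exact (hvalS Q hQ).le
    · have hk0 : k Q = 0 := by
        by_contra hne
        exact hQ (Or.inl hne)
      have e1 : Q.valuation F z = 1 := by
        rw [hn, h4 Q hk0, mul_zero, WithZero.exp_zero]
      have e2 : Q.valuation F (algebraMap R F d) = 1 := by
        rw [hk, hk0]; simp
      rw [map_mul, map_pow, hg, map_div₀, e1, e2, div_one, mul_one]
      exact pow_le_one₀ zero_le (Q.valuation_le_one h)
  obtain ⟨r, hr⟩ := HeightOneSpectrum.mem_integers_of_valuation_le_one F _ hval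
  refine ⟨g, r, hg0, hr, fun Q hQ hmem => ?_⟩
  have e : Q.valuation F (algebraMap R F r) < 1 := (Q.valuation_lt_one_iff_mem (K := F) r).2 hmem
  rw [hr, hvalS Q (Or.inr hQ)] at e
  exact lt_irrefl _ e

theorem stmt_Ded : Stmt_Ded := by
  intro R F _ _ _ _ _ m z hm hz hord P hP
  by_cases hbot : P = ⊥
  · obtain ⟨g, r, hg, hr, -⟩ := Ded_main R F m z hm hz hord ∅ Set.finite_empty
    refine ⟨g, r, hg, hr, ?_⟩
    rw [hbot, Ideal.mem_bot]
    rintro rfl
    rw [map_zero] at hr
    exact mul_ne_zero (pow_ne_zero m hg) hz hr.symm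
  · obtain ⟨g, r, hg, hr, h⟩ := Ded_main R F m z hm hz hord {⟨P, hP, hbot⟩} (Set.finite_singleton _)
    exact ⟨g, r, hg, hr, h _ rfl⟩

end Fermat.Agent.MR.Eis
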