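import Fermat.Agent.MR.Eis.Interface
import Fermat.Agent.BR.Inst.Res
import Fermat.Agent.BR.Inst.BasicS
import Fermat.Agent.BR.Inst.Ortho2
import Fermat.Agent.BR.Inst.Approx
import Fermat.Agent.BR.Inst.AL
import Fermat.Agent.BR.Inst.All
import Fermat.Agent.ORD.Dep.GOApi

/-!
# MR / Eis / EIS-RESF : the residue field of the `q`-Gauss valuation of `FF (M p)` is `Kf (kA A) M`
-/

set_option autoImplicit false
set_option synthInstance.maxHeartbeats 400000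

noncomputable section

namespace Fermat.Agent.MR.Eis

open AlgebraicCurve ModularCurve IntermediateField Polynomial
open Fermat.Agent Fermat.Agent.INJ Fermat.Agent.INJ.Inst Fermat.Agent.BR.Inst
open Fermat.Agent.ORD.Dep (GO rd)

/-- `BR.Inst.Stmt_Res`, unconditional. -/
theorem ResF_all_Res : BR.Inst.Stmt_Res :=
  BR.Inst.stmt_Res (stmt_BasicS stmt_FrobKf) stmt_Ortho2 stmt_Approx stmt_DegS stmt_DegW all_NormS
    stmt_RedLevel stmt_LKf stmt_Levels AR36_stmt_ArchD stmt_ALProps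

theorem stmt_ResF : Stmt_ResF := by
  intro p hp A hA M _ hpM h23 y hy
  obtain ⟨a, ha, haM⟩ : ∃ a : ℕ, (a = 2 ∨ a = 3) ∧ a ∣ M := by
    rcases h23 with h | h
    · exact ⟨2, Or.inl rfl, h⟩
    · exact ⟨3, Or.inr rfl, h⟩
  obtain ⟨L, D, hD⟩ := BR.Inst.exists_gaussS (M * p) A
  have hcop : Nat.Coprime M p := ((Nat.Prime.coprime_iff_not_dvd hp).2 hpM).symm
  obtain ⟨W, hW⟩ := stmt_AL M p hcop
  have hN : M * p ≠ 0 := NeZero.ne _
  let s : FL (M * p) := ⟨sS M (cJ a) Qb,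
    sub_mem (jd_mem_bar hN (dvd_mul_right M p)) (_root_.natCast_mem _ _)⟩
  let sr : FL (M * p) := ⟨sS (M * p) (cJ a) Qb,
    sub_mem (jd_mem_bar hN dvd_rfl) (_root_.natCast_mem _ _)⟩
  have hGeo : Geo a M p A L D W s sr := ⟨⟨ha, haM, hp, hpM, hA⟩, hD, hW, rfl, rfl⟩
  obtain ⟨hL, -⟩ := ResF_all_Res a M p A L D W s sr hGeo
  obtain ⟨f, g, hfg⟩ := hy
  obtain ⟨-, h2⟩ := hD.ratio y f g hfg.1 hfg.2
  rw [ORD.Dep.rd_eq hfg, ← hL]
  have h3 : ((D.rd y : L) : LaurentSeries (kA A)) ∈ L := (D.rd y).2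
  rw [h2] at h3
  exact h3

end Fermat.Agent.MR.Eis

end
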