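import Fermat.Agent.MR.Eis.AllOf
import Fermat.Agent.MR.Eis.Ded
import Fermat.Agent.MR.Eis.ResF

/-!
# MR / Eis : the block [EIS] of S44, unconditional.
-/

set_option autoImplicit false

namespace Fermat.Agent.MR.Eis

theorem all_HeckeOrd : Stmt_HeckeOrd := heckeOrd_of stmt_Ded

theorem all_EIS0 : Stmt_EIS := EIS_of stmt_Ded stmt_ResF

theorem all_EIS4 : Stmt_EIS4 := EIS4_of stmt_Ded stmt_ResF

/-- **[EIS]** in the shape of the contract `MR/Skel/Interface.lean`. -/
theorem all_EIS : MR.Skel.Stmt_EIS IsB := skel_EIS_of stmt_Ded stmt_ResF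

end Fermat.Agent.MR.Eis
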