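import Fermat.Agent.MR.Eis.Interface
import Fermat.Agent.S28.Factor
import Fermat.Agent.S28.Scale
import Fermat.Agent.S28.FN7f
import Fermat.Agent.BR.Inst.Defs
import Fermat.Agent.ES.Mid.HF1

/-!
# MR / Eis / Conj : the conjugates of `N_ℓ` (task EIS-CONJ, helper54)
-/

set_option autoImplicit false

noncomputable section

namespace Fermat.Agent.MR.Eis

open AlgebraicCurve ModularCurve IntermediateField Polynomial IsDedekindDomain
open Fermat.Agent.S24 (Qbar FF)
open Fermat.Agent.ES.Mid (formalN twProd compress tw)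
open Fermat.Agent.INJ (IsInt)

section

variable {k : Type} [Field k]

lemma Conj_algebraMap_eq_C (a : k) : algebraMap k (LaurentSeries k) a = HahnSeries.C a := by
  rw [algebraMap_laurentSeries_eq_single]; rfl

lemma Conj_algebraMap_eq : algebraMap k (LaurentSeries k) = HahnSeries.C :=
  RingHom.ext Conj_algebraMap_eq_C

/-- the polynomial ring onto `k[t]`. -/
def Conj_g (t : LaurentSeries k) : k[X] →+* Algebra.adjoin k {t} :=
  (Polynomial.aeval (⟨t, Algebra.self_mem_adjoin_singleton k t⟩ : Algebra.adjoin k {t})).toRingHom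

lemma Conj_g_comp (t : LaurentSeries k) :
    (algebraMap (Algebra.adjoin k {t}) (LaurentSeries k)).comp (Conj_g t) = S28.evY t := by
  apply Polynomial.ringHom_ext
  · intro a
    simp only [Conj_g, S28.evY, RingHom.comp_apply, Polynomial.coe_eval₂RingHom,
      Polynomial.eval₂_C, AlgHom.toRingHom_eq_coe, RingHom.coe_coe, Polynomial.aeval_C]
    rw [← IsScalarTower.algebraMap_apply, Conj_algebraMap_eq_C]
  · simp only [Conj_g, S28.evY, RingHom.comp_apply, Polynomial.coe_eval₂RingHom,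
      Polynomial.eval₂_X, AlgHom.toRingHom_eq_coe, RingHom.coe_coe, Polynomial.aeval_X]
    rfl

lemma Conj_g_surj (t : LaurentSeries k) : Function.Surjective (Conj_g t) := by
  rintro ⟨z, hz⟩
  have hz' := hz
  rw [Algebra.adjoin_singleton_eq_range_aeval] at hz'
  obtain ⟨q, hq⟩ := hz'
  refine ⟨q, Subtype.ext ?_⟩
  have h1 := RingHom.congr_fun (Conj_g_comp t) q
  have h2 : S28.evY t q = z := by
    rw [← hq, S28.evY, Polynomial.coe_eval₂RingHom,
      AlgHom.toRingHom_eq_coe, RingHom.coe_coe, Polynomial.aeval_def, Conj_algebraMap_eq]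
  exact h1.trans h2

/-- integrality over `k[t]` in terms of two-variable polynomials. -/
lemma Conj_isInt_iff (t x : LaurentSeries k) :
    IsInt k t x ↔ ∃ P : k[X][X], P.Monic ∧ S28.ev2 P x t = 0 := by
  constructor
  · rintro ⟨p, hp, hpx⟩
    obtain ⟨q, hq, -, hqm⟩ := Polynomial.lifts_and_degree_eq_and_monic
      ((Polynomial.mem_lifts p).2 (Polynomial.map_surjective _ (Conj_g_surj t) p)) hp
    refine ⟨q, hqm, ?_⟩
    rw [← hq, Polynomial.eval₂_map, Conj_g_comp] at hpx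
    exact hpx
  · rintro ⟨P, hP, hPx⟩
    have h1 : ((algebraMap (Algebra.adjoin k {t}) (LaurentSeries k)).comp
        (Conj_g t)).IsIntegralElem x := by
      rw [Conj_g_comp]
      exact ⟨P, hP, hPx⟩
    exact h1.of_comp

/-- a ring endomorphism fixing the constants preserves integrality. -/
lemma Conj_isInt_map (φ : LaurentSeries k →+* LaurentSeries k)
    (hφ : ∀ a : k, φ (HahnSeries.C a) = HahnSeries.C a) {t x : LaurentSeries k}
    (h : IsInt k t x) : IsInt k (φ t) (φ x) := by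
  rw [Conj_isInt_iff] at h ⊢
  obtain ⟨P, hP, hPx⟩ := h
  refine ⟨P, hP, ?_⟩
  rw [← S28.Factor.map_ev2 φ hφ, hPx, map_zero]

/-- ... and reflects it. -/
lemma Conj_isInt_of_map (φ : LaurentSeries k →+* LaurentSeries k)
    (hφ : ∀ a : k, φ (HahnSeries.C a) = HahnSeries.C a) {t x : LaurentSeries k}
    (h : IsInt k (φ t) (φ x)) : IsInt k t x := by
  rw [Conj_isInt_iff] at h ⊢
  obtain ⟨P, hP, hPx⟩ := h
  refine ⟨P, hP, ?_⟩
  rw [← S28.Factor.map_ev2 φ hφ] at hPx
  exact φ.injective (by rw [hPx, map_zero])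

lemma Conj_tw_eq_scale (ζ : kˣ) (x : LaurentSeries k) : tw ζ x = S28.scale (ζ : k) x := by
  ext n
  rw [Fermat.Agent.ES.Mid.tw_coeff, S28.scale_coeff ζ.ne_zero, Units.val_zpow_eq_zpow_val]

end

/-- [CONJ] the conjugates of `N_ℓ`. -/
theorem stmt_Conj : Stmt_Conj := by
  intro k _ _ ℓ _ hℓ _ ζ hζ
  have hℓ0 : 0 < ℓ := hℓ.pos
  obtain ⟨Φ, hΦm, -, h1, h2⟩ := S28.FN7.hasModPoly k hℓ
  -- `j(q^(ℓ^2))` is integral over `k[j(q^ℓ)]`
  have hinf : IsInt k (S28.Vq k ℓ (jqModC k)) (S28.Vq k (ℓ ^ 2) (jqModC k)) := by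
    rw [Conj_isInt_iff]
    refine ⟨Φ, hΦm, ?_⟩
    have := congrArg (S28.Vq k ℓ) h1
    rw [S28.Factor.map_ev2 (S28.Vq k ℓ) (fun x => S28.Factor.Vq_C x), map_zero] at this
    rw [S28.jd, S28.Factor.Vq_Vq hℓ0 hℓ0, ← pow_two] at this
    exact this
  -- `j(c q)`, `c ^ ℓ = 1`, is integral over `k[j(q^ℓ)]`
  have hfin : ∀ c : kˣ, c ^ ℓ = 1 →
      IsInt k (S28.Vq k ℓ (jqModC k)) (S28.scale (c : k) (jqModC k)) := by
    intro c hc
    rw [Conj_isInt_iff]
    refine ⟨Φ, hΦm, ?_⟩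
    have := congrArg (S28.scale (c : k)) h2
    rw [S28.Factor.map_ev2 (S28.scale (c : k)) (fun x => S28.scale_C _ x), map_zero] at this
    have hc' : (c : k) ^ ℓ = 1 := by
      rw [← Units.val_pow_eq_pow_val, hc, Units.val_one]
    have h3 : S28.scale (c : k) (S28.jd k ℓ) = S28.jd k ℓ := by
      rw [S28.jd, S28.Factor.scale_Vq hℓ0 (S28.isScale_scale c.ne_zero) (f' := S28.scale 1)
        (by rw [hc']; exact S28.isScale_scale one_ne_zero), S28.scale_one]
    rw [h3] at this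
    exact this
  refine ⟨?_, ?_, ?_⟩
  · intro x
    rw [formalN, map_mul, ← S28.Vq_eq, S28.Factor.Vq_Vq hℓ0 hℓ0, ← pow_two, S28.Vq_eq k ℓ,
      Fermat.Agent.ES.Mid.HF1.hf_expand k ℓ ζ hζ x]
    rfl
  · intro x hx
    refine ⟨?_, ?_⟩
    · exact BR.Inst.isInt_trans hinf
        (Conj_isInt_map (S28.Vq k (ℓ ^ 2)) (fun a => S28.Factor.Vq_C a) hx)
    · intro b
      rw [Conj_tw_eq_scale]
      refine BR.Inst.isInt_trans (hfin (ζ ^ b) ?_)
        (Conj_isInt_map (S28.scale ((ζ ^ b : kˣ) : k)) (fun a => S28.scale_C _ a) hx)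
      rw [← pow_mul, mul_comm, pow_mul, hζ.pow_eq_one, one_pow]
  · intro y hy
    exact Conj_isInt_of_map (S28.Vq k ℓ) (fun a => S28.Factor.Vq_C a) hy

end Fermat.Agent.MR.Eis

end
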