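import Fermat.Agent.MR.Eis.Interface
import Fermat.Agent.ES.Mid.HF1

/-!
# MR / Eis : [CORE] the Eisenstein argument in characteristic `p` (`Stmt_EisCore`)
-/

set_option autoImplicit false
set_option synthInstance.maxHeartbeats 400000

noncomputable section

namespace Fermat.Agent.MR.Eis

open AlgebraicCurve ModularCurve IntermediateField
open Fermat.Agent.S24 (Qbar FF)
open Fermat.Agent.ES.Mid (formalN)
open Fermat.Agent.INJ.Inst (kA)

section Abs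

variable {Ω : Type*} [Field Ω]

theorem EisCore_N_inv (N : Ω → Ω) (h1 : N 1 = 1) (hmul : ∀ x y, N (x * y) = N x * N y) {y : Ω}
    (hy : y ≠ 0) : N y⁻¹ = (N y)⁻¹ := by
  apply eq_inv_of_mul_eq_one_right
  rw [← hmul, mul_inv_cancel₀ hy, h1]

theorem EisCore_N_pow (N : Ω → Ω) (h1 : N 1 = 1) (hmul : ∀ x y, N (x * y) = N x * N y) (y : Ω)
    (n : ℕ) : N (y ^ n) = N y ^ n := by
  induction n with
  | zero => rw [pow_zero, pow_zero, h1]
  | succ n ih => rw [pow_succ, pow_succ, hmul, ih]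

theorem EisCore_N_zpow (N : Ω → Ω) (h1 : N 1 = 1) (hmul : ∀ x y, N (x * y) = N x * N y) {y : Ω}
    (hy : y ≠ 0) (n : ℤ) : N (y ^ n) = N y ^ n := by
  obtain ⟨m, rfl | rfl⟩ := n.eq_nat_or_neg
  · rw [zpow_natCast, zpow_natCast, EisCore_N_pow N h1 hmul]
  · rw [zpow_neg, zpow_neg, zpow_natCast, zpow_natCast,
      EisCore_N_inv N h1 hmul (pow_ne_zero m hy), EisCore_N_pow N h1 hmul]

variable {k : Type*} [Field k] [Algebra k Ω]

/-- the Eisenstein argument, abstractly. -/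
theorem EisCore_abs (L : IntermediateField k Ω) (N : Ω → Ω) (h1 : N 1 = 1)
    (hmul : ∀ x y, N (x * y) = N x * N y) (p : ℕ) (hp : p.Prime) (S : Place k L → Prop)
    (hH : ∀ z w : L, z ≠ 0 → (w : Ω) = N (z : Ω) → (∀ x, S x → (p : ℤ) ∣ x.ord z) →
      ∀ x, S x → (p : ℤ) ∣ x.ord w)
    (u b g g' : L) (a δ : ℤ) (e : ℕ) (hu : u ≠ 0) (hb : b ≠ 0) (hg : g ≠ 0) (hg' : g' ≠ 0)
    (hNu : N (u : Ω) = (u : Ω) ^ a * (g : Ω) ^ p) (hNb : N (b : Ω) = (b : Ω) ^ e * (g' : Ω) ^ p)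
    (hnd : ¬ (p : ℤ) ∣ (e : ℤ) - a) (hd : ∀ x, S x → (p : ℤ) ∣ x.ord u - δ * x.ord b) :
    ∀ x, S x → (p : ℤ) ∣ x.ord u := by
  intro x hx
  set Z : L := u * b ^ (-δ) with hZ
  set W : L := u ^ a * g ^ p * (b ^ e * g' ^ p) ^ (-δ) with hW
  have hb' : (b : Ω) ≠ 0 := fun h => hb (Subtype.ext h)
  have hZ0 : Z ≠ 0 := mul_ne_zero hu (zpow_ne_zero _ hb)
  have hWZ : (W : Ω) = N (Z : Ω) := by
    have e1 : (Z : Ω) = (u : Ω) * (b : Ω) ^ (-δ) := by
      rw [hZ]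
      exact (map_mul L.val _ _).trans (by rw [map_zpow₀]; rfl)
    have e2 : (W : Ω) = (u : Ω) ^ a * (g : Ω) ^ p * ((b : Ω) ^ e * (g' : Ω) ^ p) ^ (-δ) := by
      rw [hW]
      have : L.val (u ^ a * g ^ p * (b ^ e * g' ^ p) ^ (-δ))
          = L.val u ^ a * L.val g ^ p * (L.val b ^ e * L.val g' ^ p) ^ (-δ) := by
        rw [map_mul, map_mul, map_zpow₀, map_zpow₀, map_mul, map_pow, map_pow, map_pow]
      exact this
    rw [e1, e2, hmul, EisCore_N_zpow N h1 hmul hb', hNu, hNb]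
  have hZd : ∀ y, S y → (p : ℤ) ∣ y.ord Z := by
    intro y hy
    rw [hZ, Place.ord_mul _ hu (zpow_ne_zero _ hb), Place.ord_zpow]
    have := hd y hy
    have e3 : y.ord u + -δ * y.ord b = y.ord u - δ * y.ord b := by ring
    rw [e3]
    exact this
  have hWd := hH Z W hZ0 hWZ hZd x hx
  have hbe : b ^ e * g' ^ p ≠ 0 := mul_ne_zero (pow_ne_zero _ hb) (pow_ne_zero _ hg')
  have hordW : x.ord W = a * x.ord u + p * x.ord g
      + -δ * (e * x.ord b + p * x.ord g') := by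
    rw [hW, Place.ord_mul _ (mul_ne_zero (zpow_ne_zero _ hu) (pow_ne_zero _ hg))
      (zpow_ne_zero _ hbe), Place.ord_mul _ (zpow_ne_zero _ hu) (pow_ne_zero _ hg),
      Place.ord_zpow, Place.ord_zpow, Place.ord_mul _ (pow_ne_zero _ hb) (pow_ne_zero _ hg'),
      ← zpow_natCast g, ← zpow_natCast b, ← zpow_natCast g', Place.ord_zpow, Place.ord_zpow,
      Place.ord_zpow]
  have key : (p : ℤ) ∣ ((e : ℤ) - a) * x.ord u := by
    have e4 : ((e : ℤ) - a) * x.ord u = e * (x.ord u - δ * x.ord b)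
        + p * (x.ord g - δ * x.ord g') - x.ord W := by
      rw [hordW]; ring
    rw [e4]
    exact dvd_sub (dvd_add (Dvd.dvd.mul_left (hd x hx) _) (dvd_mul_right _ _)) hWd
  rcases (Nat.prime_iff_prime_int.1 hp).dvd_or_dvd key with h | h
  · exact absurd h hnd
  · exact h

end Abs

/-- **[CORE]** -/
theorem stmt_EisCore (hH : Stmt_HeckeOrd) : Stmt_EisCore := by
  intro p hp A hA M _ hpM ℓ _ hℓ hℓM hℓp ζ' hζ' j u b g g' a δ hj hu hb hg hg' hNu hNb hnd hd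
  obtain ⟨h1, hmul⟩ := ES.Mid.HF1.hf_mul (kA A) ℓ ζ' hζ'
  refine EisCore_abs (S28.Kf (kA A) M) (formalN ℓ ζ') h1 hmul p hp (fun x => 0 ≤ x.ord j)
    (fun z w hz hw hzd => hH p hp A hA M hpM ℓ hℓ hℓM hℓp ζ' hζ' j z w hj hz hw hzd)
    u b g g' a δ (ℓ + 1) hu hb hg hg' hNu hNb ?_ hd
  have : ((ℓ + 1 : ℕ) : ℤ) = (ℓ : ℤ) + 1 := by push_cast; ring
  rw [this]
  exact hnd

end Fermat.Agent.MR.Eis

end
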