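import Fermat.Agent.ORD.Dep.Interface
import Fermat.Agent.S28.Interface
import Fermat.Agent.CAR.Unit.Interface2
import Fermat.Agent.S24.PlacePrime

/-!
# MR / Eis : the block [EIS] of S44 (architect: helper24).  Statements only (all `Prop`s).

Setting.  `p` prime, `A` a valuation ring of `ℚ̄` over `p`, `k = kA A`, level `M * p`, `p ∤ M`,
`κ = S28.Kf k M = k(j(q^d) : d ∣ M) ⊆ k((q))` (the residue field of the `q`-Gauss valuation of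
`FF (M * p)`), `rd A` the reduction of Gauss-integral series (`ORD/Dep`).

INPUT (contract [RES], helper51 #1690 (4)): `ubar = rd A u`, `bbar = rd A b`, `b = f(q^p)/f(q)`
(or its inverse), and `δ : ℤ` with `ord_x ubar ≡ δ ord_x bbar mod p` at all places `x` of `κ` with
`ord_x j ≥ 0`.
INPUT (skeleton): one prime `ℓ ∤ M p` with `N_ℓ u = c u^a g^p`, `p ∤ ℓ + 1 - a`.
OUTPUT : `p ∣ ord_x ubar` at all places `x` of `κ` with `ord_x j ≥ 0`    (`Stmt_EIS`).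

Proof.  `Nbar_ℓ = formalN ℓ ζ` on `k((q))` preserves `κ` (`Stmt_NMemK`), commutes with the reduction
(`Stmt_RedN`), preserves "`p ∣ ord_x` off the cusps" (`Stmt_HeckeOrd`), and `N_ℓ b = b^(ℓ+1)`
(`Stmt_EtaN`, formal).  Then `Z = ubar bbar^(-δ)` gives `p ∣ δ (ℓ + 1 - a) ord_x bbar`
(`Stmt_EisCore`).

`Stmt_HeckeOrd` (helper51's argument, #1690 (6)): `R` = integral closure of `k[j]` in `κ`
(Dedekind), `V = {r ∈ R : r = g^p z}` is a `k`-subspace of `R` contained in no prime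
(`Stmt_Ded`); the conjugates `c_∞ = (q ↦ q^(ℓ²))`, `c_b = (q ↦ ζ^b q)` are ring homs `R → k((q))`,
integral over `c_0 R`, `c_0 = (q ↦ q^ℓ)` (`Stmt_Conj`), `c_0 (Nbar r) = ∏ c_i r`; lying over +
a vector space over an infinite field is not a finite union of proper subspaces (`Stmt_Avoid`)
give `r ∈ V` with `Nbar r ∉ 𝔪_x`.

Every package proves `theorem stmt_xxx (h.. : Stmt_..) : Stmt_xxx` in its own NEW file
`Fermat/Agent/MR/Eis/<Name>.lean` importing this one.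
-/

set_option autoImplicit false

noncomputable section

namespace Fermat.Agent.MR.Eis

open AlgebraicCurve ModularCurve IntermediateField Polynomial IsDedekindDomain
open Fermat.Agent.S24 (Qbar FF)
open Fermat.Agent.ES.Mid (formalN twProd compress tw)
open Fermat.Agent.INJ (IsInt)
open Fermat.Agent.INJ.Inst (kA)
open Fermat.Agent.ORD.Dep (GO rd cst)
open Fermat.Agent.CAR.Unit (etaLser lf4 lx1)

/-! ### 1. abstract algebra -/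

/-- [DED] `R` Dedekind, `z ∈ Frac R` with all orders divisible by `m`: no prime ideal of `R`
contains all the elements `g^m z ∈ R`. -/
def Stmt_Ded : Prop :=
  ∀ (R F : Type) [CommRing R] [IsDedekindDomain R] [Field F] [Algebra R F] [IsFractionRing R F]
    (m : ℕ) (z : F), 0 < m → z ≠ 0 →
    (∀ P : HeightOneSpectrum R, ∃ n : ℤ, P.valuation F z = WithZero.exp ((m : ℤ) * n)) →
    ∀ P : Ideal R, P.IsPrime →
      ∃ (g : F) (r : R), g ≠ 0 ∧ algebraMap R F r = g ^ m * z ∧ r ∉ P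

/-- [AVOID] lying over + avoidance of finitely many proper subspaces. -/
def Stmt_Avoid : Prop :=
  ∀ (k R Ω : Type) [Field k] [Infinite k] [CommRing R] [Algebra k R] [CommRing Ω]
    (ι : Type) [Fintype ι] (c₀ : R →+* Ω) (c : ι → R →+* Ω), Function.Injective c₀ →
    (∀ i r, c₀.IsIntegralElem (c i r)) →
    ∀ V : Submodule k R, (∀ P : Ideal R, P.IsPrime → ∃ r ∈ V, r ∉ P) →
    ∀ 𝔪 : Ideal R, 𝔪.IsPrime → ∃ r ∈ V, ∀ n : R, c₀ n = ∏ i, c i r → n ∉ 𝔪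

/-! ### 2. formal series over a field -/

/-- [CONJ] the conjugates of `N_ℓ`. -/
def Stmt_Conj : Prop :=
  ∀ (k : Type) [Field k] [IsAlgClosed k] (ℓ : ℕ) [NeZero ℓ], ℓ.Prime → (ℓ : k) ≠ 0 →
    ∀ ζ : kˣ, IsPrimitiveRoot ζ ℓ →
    (∀ x : LaurentSeries k, S28.Vq k ℓ (formalN ℓ ζ x) =
      S28.Vq k (ℓ ^ 2) x * ∏ b ∈ Finset.range ℓ, tw (ζ ^ b) x) ∧
    (∀ x : LaurentSeries k, IsInt k (jqModC k) x →
      IsInt k (S28.Vq k ℓ (jqModC k)) (S28.Vq k (ℓ ^ 2) x) ∧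
      ∀ b : ℕ, IsInt k (S28.Vq k ℓ (jqModC k)) (tw (ζ ^ b) x)) ∧
    (∀ y : LaurentSeries k, IsInt k (S28.Vq k ℓ (jqModC k)) (S28.Vq k ℓ y) →
      IsInt k (jqModC k) y)

/-- [ETA] `N_ℓ` of an eta quotient of level prime to `ℓ`. -/
def Stmt_EtaN : Prop :=
  ∀ (R : Type) [CommRing R] [IsDomain R] (ℓ : ℕ) [NeZero ℓ], ℓ.Prime →
    ∀ ζ : Rˣ, IsPrimitiveRoot ζ ℓ →
    ∀ l : List (ℕ × ℤ), (∀ e ∈ l, 0 < e.1 ∧ ¬ ℓ ∣ e.1) →
      formalN ℓ ζ (etaLser R 0 l) = etaLser R 0 l ^ (ℓ + 1)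

/-! ### 3. reduction -/

/-- [REDN] the reduction commutes with `N_ℓ`, `ℓ ≠ p`. -/
def Stmt_RedN : Prop :=
  ∀ (p : ℕ), p.Prime → ∀ A : ValuationSubring Qbar, A.LiesOverPrime p →
  ∀ (ℓ : ℕ) [NeZero ℓ], ℓ.Prime → ℓ ≠ p → ∀ ζ : Qbarˣ, IsPrimitiveRoot ζ ℓ →
  ∀ ζ' : (kA A)ˣ, IsPrimitiveRoot ζ' ℓ →
  ∀ x : LaurentSeries Qbar, GO A x → rd A x ≠ 0 →
    GO A (formalN ℓ ζ x) ∧ rd A (formalN ℓ ζ x) = formalN ℓ ζ' (rd A x)

/-- [NMEMK] `Nbar_ℓ` preserves `κ`. -/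
def Stmt_NMemK : Prop :=
  ∀ (p : ℕ), p.Prime → ∀ A : ValuationSubring Qbar, A.LiesOverPrime p →
  ∀ (M : ℕ) [NeZero M], ¬ p ∣ M → ∀ (ℓ : ℕ) [NeZero ℓ], ℓ.Prime → ¬ ℓ ∣ M → ℓ ≠ p →
  ∀ ζ' : (kA A)ˣ, IsPrimitiveRoot ζ' ℓ →
  ∀ x ∈ S28.Kf (kA A) M, formalN ℓ ζ' x ∈ S28.Kf (kA A) M

/-- [RESF] the residue field of the `q`-Gauss valuation at level `M p` is `κ`. -/
def Stmt_ResF : Prop :=
  ∀ (p : ℕ), p.Prime → ∀ A : ValuationSubring Qbar, A.LiesOverPrime p →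
  ∀ (M : ℕ) [NeZero (M * p)], ¬ p ∣ M → (2 ∣ M ∨ 3 ∣ M) →
  ∀ y : FF (M * p), GO A (y : LaurentSeries Qbar) →
    rd A (y : LaurentSeries Qbar) ∈ S28.Kf (kA A) M

/-- [FIELD] `κ / k(j)`. -/
def Stmt_Field : Prop :=
  ∀ (k : Type) [Field k] [IsAlgClosed k] (M : ℕ) [NeZero M] (j : S28.Kf k M),
    (j : LaurentSeries k) = jqModC k →
    Transcendental k j ∧ FiniteDimensional k⟮j⟯ (S28.Kf k M) ∧
      Algebra.IsSeparable k⟮j⟯ (S28.Kf k M)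

/-! ### 4. the Hecke operator and orders -/

/-- [HORD] `Nbar_ℓ` preserves "`p ∣ ord_x` at all `x` off the cusps". -/
def Stmt_HeckeOrd : Prop :=
  ∀ (p : ℕ), p.Prime → ∀ A : ValuationSubring Qbar, A.LiesOverPrime p →
  ∀ (M : ℕ) [NeZero M], ¬ p ∣ M → ∀ (ℓ : ℕ) [NeZero ℓ], ℓ.Prime → ¬ ℓ ∣ M → ℓ ≠ p →
  ∀ ζ' : (kA A)ˣ, IsPrimitiveRoot ζ' ℓ →
  ∀ j z w : S28.Kf (kA A) M, (j : LaurentSeries (kA A)) = jqModC (kA A) → z ≠ 0 →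
    (w : LaurentSeries (kA A)) = formalN ℓ ζ' (z : LaurentSeries (kA A)) →
    (∀ x : Place (kA A) (S28.Kf (kA A) M), 0 ≤ x.ord j → (p : ℤ) ∣ x.ord z) →
    ∀ x : Place (kA A) (S28.Kf (kA A) M), 0 ≤ x.ord j → (p : ℤ) ∣ x.ord w

/-- [CORE] the Eisenstein argument in characteristic `p`. -/
def Stmt_EisCore : Prop :=
  ∀ (p : ℕ), p.Prime → ∀ A : ValuationSubring Qbar, A.LiesOverPrime p →
  ∀ (M : ℕ) [NeZero M], ¬ p ∣ M → ∀ (ℓ : ℕ) [NeZero ℓ], ℓ.Prime → ¬ ℓ ∣ M → ℓ ≠ p →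
  ∀ ζ' : (kA A)ˣ, IsPrimitiveRoot ζ' ℓ →
  ∀ (j u b g g' : S28.Kf (kA A) M) (a δ : ℤ), (j : LaurentSeries (kA A)) = jqModC (kA A) →
    u ≠ 0 → b ≠ 0 → g ≠ 0 → g' ≠ 0 →
    formalN ℓ ζ' (u : LaurentSeries (kA A)) =
      (u : LaurentSeries (kA A)) ^ a * (g : LaurentSeries (kA A)) ^ p →
    formalN ℓ ζ' (b : LaurentSeries (kA A)) =
      (b : LaurentSeries (kA A)) ^ (ℓ + 1) * (g' : LaurentSeries (kA A)) ^ p →
    ¬ (p : ℤ) ∣ (ℓ : ℤ) + 1 - a →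
    (∀ x : Place (kA A) (S28.Kf (kA A) M), 0 ≤ x.ord j → (p : ℤ) ∣ x.ord u - δ * x.ord b) →
    ∀ x : Place (kA A) (S28.Kf (kA A) M), 0 ≤ x.ord j → (p : ℤ) ∣ x.ord u

/-! ### 5. the contract -/

/-- **[EIS]**, abstract in the Eisenstein element `b`. -/
def Stmt_EIS : Prop :=
  ∀ (p : ℕ), p.Prime → ∀ A : ValuationSubring Qbar, A.LiesOverPrime p →
  ∀ (M : ℕ) [NeZero M] [NeZero (M * p)], ¬ p ∣ M → (2 ∣ M ∨ 3 ∣ M) →
  ∀ (ℓ : ℕ) [NeZero ℓ], ℓ.Prime → ¬ ℓ ∣ M * p → ∀ ζ : Qbarˣ, IsPrimitiveRoot ζ ℓ →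
  ∀ (u b g g' : FF (M * p)) (c c' : Qbar) (a δ : ℤ),
    formalN ℓ ζ (u : LaurentSeries Qbar) =
      cst c * (u : LaurentSeries Qbar) ^ a * (g : LaurentSeries Qbar) ^ p →
    formalN ℓ ζ (b : LaurentSeries Qbar) =
      cst c' * (b : LaurentSeries Qbar) ^ (ℓ + 1) * (g' : LaurentSeries Qbar) ^ p →
    ¬ (p : ℤ) ∣ (ℓ : ℤ) + 1 - a →
  ∀ j ub bb : S28.Kf (kA A) M, (j : LaurentSeries (kA A)) = jqModC (kA A) →
    (ub : LaurentSeries (kA A)) = rd A (u : LaurentSeries Qbar) → ub ≠ 0 →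
    (bb : LaurentSeries (kA A)) = rd A (b : LaurentSeries Qbar) → bb ≠ 0 →
    (∀ x : Place (kA A) (S28.Kf (kA A) M), 0 ≤ x.ord j → (p : ℤ) ∣ x.ord ub - δ * x.ord bb) →
    ∀ x : Place (kA A) (S28.Kf (kA A) M), 0 ≤ x.ord j → (p : ℤ) ∣ x.ord ub

/-- **[EIS]** with `b = f(q^p) / f(q)`, `f = θ² = η(2z)^10 / (η(z)^4 η(4z)^4)`. -/
def Stmt_EIS4 : Prop :=
  ∀ (p : ℕ), p.Prime → ∀ A : ValuationSubring Qbar, A.LiesOverPrime p →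
  ∀ (M : ℕ) [NeZero M] [NeZero (M * p)], ¬ p ∣ M → 4 ∣ M →
  ∀ (ℓ : ℕ) [NeZero ℓ], ℓ.Prime → ¬ ℓ ∣ M * p → ∀ ζ : Qbarˣ, IsPrimitiveRoot ζ ℓ →
  ∀ (u b g : FF (M * p)) (c : Qbar) (a δ : ℤ),
    formalN ℓ ζ (u : LaurentSeries Qbar) =
      cst c * (u : LaurentSeries Qbar) ^ a * (g : LaurentSeries Qbar) ^ p →
    (b : LaurentSeries Qbar) = etaLser Qbar 0 (lx1 lf4 p) →
    ¬ (p : ℤ) ∣ (ℓ : ℤ) + 1 - a →
  ∀ j ub bb : S28.Kf (kA A) M, (j : LaurentSeries (kA A)) = jqModC (kA A) →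
    (ub : LaurentSeries (kA A)) = rd A (u : LaurentSeries Qbar) → ub ≠ 0 →
    (bb : LaurentSeries (kA A)) = rd A (b : LaurentSeries Qbar) →
    (∀ x : Place (kA A) (S28.Kf (kA A) M), 0 ≤ x.ord j → (p : ℤ) ∣ x.ord ub - δ * x.ord bb) →
    ∀ x : Place (kA A) (S28.Kf (kA A) M), 0 ≤ x.ord j → (p : ℤ) ∣ x.ord ub

end Fermat.Agent.MR.Eis

end
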