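/-
TEAM MR -> S44, block EIS, package EIS-ETA (helper2):
`N_ℓ` of an eta quotient of level prime to `ℓ` is its `(ℓ+1)`-st power.
-/
import Fermat.Agent.MR.Eis.Interface
import Fermat.Agent.CAR.Unit.ListCalc
import Fermat.Agent.ES.Mid.HF1

set_option autoImplicit false
set_option linter.style.haveILetI false
set_option linter.unusedSectionVars false

noncomputable section

namespace Fermat.Agent.MR.Eis

open PowerSeries Filter
open Fermat.Agent.ES.Mid (formalN twProd compress tw)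
open Fermat.Agent.CAR.Unit (etaLser etaLps Eps EpsInv)
open Fermat.Agent.KL.Haupt (lau)

/-! ### roots of unity -/

theorem EtaN_prod_root {A : Type*} [CommRing A] [IsDomain A] {ℓ : ℕ} (hℓ : 0 < ℓ) {η : A}
    (hη : IsPrimitiveRoot η ℓ) (y : A) : ∏ b ∈ Finset.range ℓ, (1 - η ^ b * y) = 1 - y ^ ℓ := by
  have h := hη.pow_sub_pow_eq_prod_sub_mul 1 y hℓ
  rw [one_pow] at h
  rw [h]
  refine Finset.prod_nbij (fun b => η ^ b) ?_ ?_ ?_ ?_
  · intro b _
    rw [Polynomial.mem_nthRootsFinset hℓ, ← pow_mul, mul_comm, pow_mul, hη.pow_eq_one, one_pow]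
  · intro b hb c hc hbc
    exact hη.pow_inj (Finset.mem_range.1 hb) (Finset.mem_range.1 hc) hbc
  · intro x hx
    have hx' : x ^ ℓ = 1 := (Polynomial.mem_nthRootsFinset hℓ 1).1 hx
    haveI : NeZero ℓ := ⟨hℓ.ne'⟩
    obtain ⟨i, hi, rfl⟩ := hη.eq_pow_of_pow_eq_one hx'
    exact ⟨i, Finset.mem_coe.2 (Finset.mem_range.2 hi), rfl⟩
  · intro b _
    rfl

/-! ### topology -/

section Top

open scoped PowerSeries.WithPiTopology

variable {R : Type*} [CommRing R] [TopologicalSpace R]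

theorem EtaN_cont_of_coeff {T : Type*} [TopologicalSpace T] (φ : T → R⟦X⟧)
    (h : ∀ n, Continuous fun f => coeff n (φ f)) : Continuous φ :=
  continuous_iff_continuousAt.mpr fun _ =>
    (WithPiTopology.tendsto_iff_coeff_tendsto R _ _ _).mpr fun d => (h d).continuousAt

theorem EtaN_cont_expand (ℓ : ℕ) (hℓ : ℓ ≠ 0) : Continuous (expand (R := R) ℓ hℓ) := by
  refine EtaN_cont_of_coeff _ fun n => ?_
  simp only [coeff_expand]
  by_cases h : ℓ ∣ n
  · simp only [if_pos h]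
    exact WithPiTopology.continuous_coeff R _
  · simp only [if_neg h]
    exact continuous_const

variable [DiscreteTopology R]

theorem EtaN_cont_rescale (a : R) : Continuous (rescale a) := by
  refine EtaN_cont_of_coeff _ fun n => ?_
  simp only [coeff_rescale]
  exact (continuous_of_discreteTopology (f := fun r : R => a ^ n * r)).comp
    (WithPiTopology.continuous_coeff R n)

theorem EtaN_cont_map : Continuous (PowerSeries.map (Int.castRingHom R)) := by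
  refine EtaN_cont_of_coeff _ fun n => ?_
  simp only [coeff_map]
  exact (continuous_of_discreteTopology (f := fun r : ℤ => Int.castRingHom R r)).comp
    (WithPiTopology.continuous_coeff ℤ n)

theorem EtaN_mult (s : ℕ → Prop) [DecidablePred s] :
    Multipliable (fun n => if s n then (1 : R⟦X⟧) - X ^ (n + 1) else 1) := by
  nontriviality R
  have h : (fun n => if s n then (1 : R⟦X⟧) - X ^ (n + 1) else 1)
      = fun n => 1 + (if s n then -(X : R⟦X⟧) ^ (n + 1) else 0) := by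
    funext n
    split_ifs
    · rw [sub_eq_add_neg]
    · rw [add_zero]
  rw [h]
  apply WithPiTopology.multipliable_one_add_of_tendsto_order_atTop_nhds_top
  refine ENat.tendsto_nhds_top_iff_natCast_lt.mpr (fun n ↦ Filter.eventually_atTop.mpr ⟨n, ?_⟩)
  intro m hm
  split_ifs
  · rw [order_neg, order_X_pow]
    norm_cast
    exact Nat.lt_add_one_iff.mpr hm
  · rw [order_zero]
    exact ENat.natCast_lt_top n

theorem EtaN_map_etaProd :
    PowerSeries.map (Int.castRingHom R) ModularCurve.etaProd = ∏' n : ℕ, (1 - X ^ (n + 1)) := by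
  rw [ModularCurve.etaProd,
    (WithPiTopology.multipliable_one_sub_X_pow ℤ).map_tprod _ EtaN_cont_map]
  simp

end Top

/-! ### the norm -/

section Nm

variable {R : Type*} [CommRing R]

/-- `Nm f = ∏_b f(ζ^b q)` -/
def EtaN_Nm (ℓ : ℕ) (ζ : R) (f : R⟦X⟧) : R⟦X⟧ := ∏ b ∈ Finset.range ℓ, rescale (ζ ^ b) f

theorem EtaN_Nm_mul (ℓ : ℕ) (ζ : R) (f g : R⟦X⟧) :
    EtaN_Nm ℓ ζ (f * g) = EtaN_Nm ℓ ζ f * EtaN_Nm ℓ ζ g := by
  simp only [EtaN_Nm, map_mul, Finset.prod_mul_distrib]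

theorem EtaN_Nm_expand (ℓ : ℕ) (hℓ : ℓ ≠ 0) (ζ : R) (hζ : ζ ^ ℓ = 1) (f : R⟦X⟧) :
    EtaN_Nm ℓ ζ (expand ℓ hℓ f) = expand ℓ hℓ f ^ ℓ := by
  have h : ∀ b : ℕ, rescale (ζ ^ b) (expand ℓ hℓ f) = expand ℓ hℓ f := by
    intro b
    ext n
    rw [coeff_rescale, coeff_expand]
    split_ifs with hn
    · obtain ⟨k, rfl⟩ := hn
      rw [← pow_mul, mul_comm b, mul_assoc, pow_mul, hζ, one_pow, one_mul]
    · rw [mul_zero]
  simp only [EtaN_Nm, h, Finset.prod_const, Finset.card_range]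

theorem EtaN_Nm_term [IsDomain R] (ℓ : ℕ) (hℓ : ℓ.Prime) (ζ : R) (hζ : IsPrimitiveRoot ζ ℓ)
    (m : ℕ) (hm : ¬ ℓ ∣ m) :
    EtaN_Nm ℓ ζ (1 - X ^ m) = expand ℓ hℓ.ne_zero (1 - X ^ m) := by
  have hη : IsPrimitiveRoot (C (ζ ^ m) : R⟦X⟧) ℓ :=
    (hζ.pow_of_coprime m ((Nat.coprime_comm.1 ((Nat.Prime.coprime_iff_not_dvd hℓ).2 hm)))).map_of_injective
      (C_injective (R := R))
  have h := EtaN_prod_root hℓ.pos hη (X ^ m)
  rw [map_sub, map_one, map_pow, expand_X, ← pow_mul, mul_comm ℓ m, pow_mul, ← h, EtaN_Nm]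
  refine Finset.prod_congr rfl fun b _ => ?_
  rw [map_sub, map_one, map_pow, rescale_X, mul_pow, ← map_pow, ← map_pow, ← pow_mul, ← pow_mul,
    mul_comm b m]

end Nm

section Main

open scoped PowerSeries.WithPiTopology

variable {R : Type*} [CommRing R] [IsDomain R] [TopologicalSpace R] [DiscreteTopology R]

theorem EtaN_main_top (ℓ : ℕ) (hℓ : ℓ.Prime) (ζ : R) (hζ : IsPrimitiveRoot ζ ℓ) (E : R⟦X⟧)
    (hEdef : E = ∏' n : ℕ, (1 - X ^ (n + 1))) :
    EtaN_Nm ℓ ζ E * expand ℓ hℓ.ne_zero (expand ℓ hℓ.ne_zero E)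
      = expand ℓ hℓ.ne_zero E ^ (ℓ + 1) := by
  have hℓ0 := hℓ.ne_zero
  let f : ℕ → R⟦X⟧ := fun n => if ¬ ℓ ∣ n + 1 then 1 - X ^ (n + 1) else 1
  let c : ℕ → R⟦X⟧ := fun n => if ℓ ∣ n + 1 then 1 - X ^ (n + 1) else 1
  have hf : Multipliable f := EtaN_mult _
  have hc : Multipliable c := EtaN_mult _
  have ha : Multipliable (fun n : ℕ => (1 : R⟦X⟧) - X ^ (n + 1)) :=
    WithPiTopology.multipliable_one_sub_X_pow R
  have hE : E = (∏' n, f n) * ∏' n, c n := by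
    rw [← hf.tprod_mul hc, hEdef]
    refine tprod_congr fun n => ?_
    by_cases h : ℓ ∣ n + 1 <;> simp [f, c, h]
  have hC : ∏' n, c n = expand ℓ hℓ0 E := by
    rw [hEdef, ha.map_tprod (expand ℓ hℓ0) (EtaN_cont_expand ℓ hℓ0)]
    let g : ℕ → ℕ := fun k => ℓ * (k + 1) - 1
    have hg1 : ∀ k, g k + 1 = ℓ * (k + 1) := fun k =>
      Nat.sub_add_cancel (Nat.mul_pos hℓ.pos (Nat.succ_pos k))
    have hg : Function.Injective g := by
      intro k k' h
      have h1 : ℓ * (k + 1) = ℓ * (k' + 1) := by rw [← hg1, ← hg1, h]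
      have := Nat.eq_of_mul_eq_mul_left hℓ.pos h1
      omega
    rw [← hg.tprod_eq (f := c) ?_]
    · refine tprod_congr fun k => ?_
      simp only [c, hg1, dvd_mul_right, if_true]
      rw [map_sub, map_one, map_pow, expand_X, ← pow_mul]
    · intro n hn
      have h1 : ℓ ∣ n + 1 := by
        by_contra h
        exact hn (by simp only [c, if_neg h])
      obtain ⟨t, ht⟩ := h1
      obtain ⟨k, rfl⟩ : ∃ k, t = k + 1 := by
        rcases t with _ | k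
        · simp at ht
        · exact ⟨k, rfl⟩
      refine ⟨k, ?_⟩
      have := hg1 k
      omega
  have hF : EtaN_Nm ℓ ζ (∏' n, f n) = expand ℓ hℓ0 (∏' n, f n) := by
    unfold EtaN_Nm
    have h1 : ∀ b : ℕ, rescale (ζ ^ b) (∏' n, f n) = ∏' n, rescale (ζ ^ b) (f n) :=
      fun b => hf.map_tprod _ (EtaN_cont_rescale _)
    simp only [h1]
    rw [← Multipliable.tprod_finsetProd (f := fun (b n : ℕ) => rescale (ζ ^ b) (f n))
        (fun b _ => hf.map _ (EtaN_cont_rescale (ζ ^ b))),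
      hf.map_tprod (expand ℓ hℓ0) (EtaN_cont_expand ℓ hℓ0)]
    refine tprod_congr fun n => ?_
    by_cases h : ℓ ∣ n + 1
    · simp [f, h]
    · simp only [f, if_pos h]
      exact EtaN_Nm_term ℓ hℓ ζ hζ (n + 1) h
  rw [hC] at hE
  generalize (∏' n, f n) = F at hE hF
  generalize hV : expand ℓ hℓ0 E = VE at hE
  have h2 : VE = expand ℓ hℓ0 F * expand ℓ hℓ0 VE := by
    rw [← map_mul, ← hE, hV]
  have h3 : EtaN_Nm ℓ ζ E = expand ℓ hℓ0 F * VE ^ ℓ := by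
    rw [hE, EtaN_Nm_mul, hF, ← hV, EtaN_Nm_expand ℓ hℓ0 ζ hζ.pow_eq_one]
  rw [h3]
  calc expand ℓ hℓ0 F * VE ^ ℓ * expand ℓ hℓ0 VE
      = (expand ℓ hℓ0 F * expand ℓ hℓ0 VE) * VE ^ ℓ := by ring
    _ = VE ^ (ℓ + 1) := by rw [← h2]; ring

end Main

/-- the main identity, without topology -/
theorem EtaN_main {R : Type*} [CommRing R] [IsDomain R] (ℓ : ℕ) (hℓ : ℓ.Prime) (ζ : R)
    (hζ : IsPrimitiveRoot ζ ℓ) (E : R⟦X⟧)
    (hE : E = PowerSeries.map (Int.castRingHom R) ModularCurve.etaProd) :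
    EtaN_Nm ℓ ζ E * expand ℓ hℓ.ne_zero (expand ℓ hℓ.ne_zero E)
      = expand ℓ hℓ.ne_zero E ^ (ℓ + 1) := by
  letI : TopologicalSpace R := ⊥
  haveI : DiscreteTopology R := ⟨rfl⟩
  exact EtaN_main_top ℓ hℓ ζ hζ E (hE.trans EtaN_map_etaProd)

/-! ### Laurent series -/

section Lau

variable {R : Type*} [CommRing R]

theorem EtaN_tw_ofPS (ζ : Rˣ) (f : R⟦X⟧) :
    tw ζ (HahnSeries.ofPowerSeries ℤ R f) = HahnSeries.ofPowerSeries ℤ R (rescale (ζ : R) f) := by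
  ext k
  rw [Fermat.Agent.ES.Mid.tw_coeff]
  rcases le_or_gt 0 k with hk | hk
  · lift k to ℕ using hk
    rw [HahnSeries.ofPowerSeries_apply_coeff, HahnSeries.ofPowerSeries_apply_coeff, coeff_rescale,
      zpow_natCast, Units.val_pow_eq_pow_val]
  · rw [ModularCurve.ofPowerSeries_coeff_of_neg _ hk, ModularCurve.ofPowerSeries_coeff_of_neg _ hk,
      mul_zero]

theorem EtaN_twProd_ofPS (ℓ : ℕ) (ζ : Rˣ) (f : R⟦X⟧) :
    twProd ℓ ζ (HahnSeries.ofPowerSeries ℤ R f)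
      = HahnSeries.ofPowerSeries ℤ R (EtaN_Nm ℓ (ζ : R) f) := by
  unfold twProd EtaN_Nm
  rw [map_prod]
  refine Finset.prod_congr rfl fun b _ => ?_
  rw [EtaN_tw_ofPS, Units.val_pow_eq_pow_val]

theorem EtaN_rescale_expand (a : R) (d : ℕ) (hd : d ≠ 0) (f : R⟦X⟧) :
    rescale a (expand d hd f) = expand d hd (rescale (a ^ d) f) := by
  ext n
  rw [coeff_rescale, coeff_expand, coeff_expand]
  split_ifs with hn
  · obtain ⟨k, rfl⟩ := hn
    rw [Nat.mul_div_cancel_left _ (Nat.pos_of_ne_zero hd), coeff_rescale, pow_mul]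
  · rw [mul_zero]

theorem EtaN_Nm_expand' (ℓ : ℕ) (ζ : R) (d : ℕ) (hd : d ≠ 0) (f : R⟦X⟧) :
    EtaN_Nm ℓ ζ (expand d hd f) = expand d hd (EtaN_Nm ℓ (ζ ^ d) f) := by
  unfold EtaN_Nm
  rw [map_prod]
  refine Finset.prod_congr rfl fun b _ => ?_
  rw [EtaN_rescale_expand, ← pow_mul, ← pow_mul, mul_comm b d]

theorem EtaN_expand_comm (a b : ℕ) (ha : a ≠ 0) (hb : b ≠ 0) (f : R⟦X⟧) :
    expand a ha (expand b hb f) = expand b hb (expand a ha f) := by
  have key : ∀ (m n : ℕ) (hm : m ≠ 0) (hn : n ≠ 0), m = n → expand m hm f = expand n hn f := by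
    intro m n hm hn h
    subst h
    rfl
  rw [← expand_mul, ← expand_mul]
  exact key _ _ _ _ (mul_comm a b)

end Lau

theorem EtaN_Eps (R : Type) [CommRing R] [IsDomain R] (ℓ : ℕ) [NeZero ℓ] (hℓ : ℓ.Prime) (ζ : Rˣ)
    (hζ : IsPrimitiveRoot ζ ℓ) (d : ℕ) (hd : 0 < d) (hdℓ : ¬ ℓ ∣ d) :
    formalN ℓ ζ (lau R (Eps d)) = lau R (Eps d) ^ (ℓ + 1) := by
  apply ModularCurve.qExpand_injective (R := R) ℓ
  unfold formalN
  rw [map_mul, Fermat.Agent.ES.Mid.HF1.hf_expand R ℓ ζ hζ]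
  obtain ⟨E, hE⟩ : ∃ E, E = PowerSeries.map (Int.castRingHom R) ModularCurve.etaProd := ⟨_, rfl⟩
  have hx : lau R (Eps d) = HahnSeries.ofPowerSeries ℤ R (expand d hd.ne' E) := by
    rw [Fermat.Agent.KL.Haupt.lau_apply, Eps, dif_neg hd.ne', map_expand, hE]
  have hζ' : IsPrimitiveRoot ((ζ : R) ^ d) ℓ :=
    (IsPrimitiveRoot.coe_units_iff.2 hζ).pow_of_coprime d
      (Nat.coprime_comm.1 ((Nat.Prime.coprime_iff_not_dvd hℓ).2 hdℓ))
  have hmain := EtaN_main ℓ hℓ _ hζ' E hE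
  rw [hx, Fermat.Agent.KL.Haupt.qExpand_ofPowerSeries, Fermat.Agent.KL.Haupt.qExpand_ofPowerSeries,
    EtaN_twProd_ofPS, ← map_mul, ← map_pow, Fermat.Agent.KL.Haupt.qExpand_ofPowerSeries]
  congr 1
  rw [EtaN_Nm_expand', map_pow, EtaN_expand_comm ℓ d, EtaN_expand_comm ℓ d, ← map_mul, ← map_pow,
    ← hmain, mul_comm]

theorem EtaN_EpsInv (R : Type) [CommRing R] [IsDomain R] (ℓ : ℕ) [NeZero ℓ] (hℓ : ℓ.Prime)
    (ζ : Rˣ) (hζ : IsPrimitiveRoot ζ ℓ) (d : ℕ) (hd : 0 < d) (hdℓ : ¬ ℓ ∣ d) :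
    formalN ℓ ζ (lau R (EpsInv d)) = lau R (EpsInv d) ^ (ℓ + 1) := by
  have hmul := Fermat.Agent.ES.Mid.HF1.hf_mul R ℓ ζ hζ
  have h1 : lau R (Eps d) * lau R (EpsInv d) = 1 := by
    rw [← map_mul, Fermat.Agent.CAR.Unit.L1_Eps_mul_inv, map_one]
  have h2 : lau R (Eps d) ^ (ℓ + 1) * formalN ℓ ζ (lau R (EpsInv d)) = 1 := by
    rw [← EtaN_Eps R ℓ hℓ ζ hζ d hd hdℓ, ← hmul.2, h1, hmul.1]
  have h3 : lau R (Eps d) ^ (ℓ + 1) * lau R (EpsInv d) ^ (ℓ + 1) = 1 := by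
    rw [← mul_pow, h1, one_pow]
  calc formalN ℓ ζ (lau R (EpsInv d))
      = formalN ℓ ζ (lau R (EpsInv d)) * (lau R (Eps d) ^ (ℓ + 1) * lau R (EpsInv d) ^ (ℓ + 1)) := by
        rw [h3, mul_one]
    _ = (lau R (Eps d) ^ (ℓ + 1) * formalN ℓ ζ (lau R (EpsInv d))) * lau R (EpsInv d) ^ (ℓ + 1) := by
        ring
    _ = lau R (EpsInv d) ^ (ℓ + 1) := by rw [h2, one_mul]

/-- [ETA] -/
theorem stmt_EtaN : Stmt_EtaN := by
  intro R _ _ ℓ _ hℓ ζ hζ l hl
  have hmul := Fermat.Agent.ES.Mid.HF1.hf_mul R ℓ ζ hζ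
  have h0 : ∀ l, etaLser R 0 l = lau R (etaLps l) := by
    intro l
    rw [etaLser, show (HahnSeries.single (0 : ℤ) (1 : R)) = 1 from rfl, one_mul]
  have hpow : ∀ (x : LaurentSeries R) (n : ℕ), formalN ℓ ζ x = x ^ (ℓ + 1) →
      formalN ℓ ζ (x ^ n) = (x ^ n) ^ (ℓ + 1) := by
    intro x n hx
    induction n with
    | zero => rw [pow_zero, hmul.1, one_pow]
    | succ n ih => rw [pow_succ, hmul.2, ih, hx, mul_pow]
  rw [h0]
  induction l with
  | nil => rw [Fermat.Agent.CAR.Unit.L1_etaLps_nil, map_one, hmul.1, one_pow]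
  | cons e l ih =>
    rw [Fermat.Agent.CAR.Unit.L1_etaLps_cons, map_mul, hmul.2,
      ih (fun e' he' => hl e' (List.mem_cons_of_mem _ he')), mul_pow]
    congr 1
    obtain ⟨hd, hdl⟩ := hl e List.mem_cons_self
    rw [Fermat.Agent.CAR.Unit.L1_fac]
    split_ifs
    · rw [map_pow]
      exact hpow _ _ (EtaN_Eps R ℓ hℓ ζ hζ e.1 hd hdl)
    · rw [map_pow]
      exact hpow _ _ (EtaN_EpsInv R ℓ hℓ ζ hζ e.1 hd hdl)

end Fermat.Agent.MR.Eis

end
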