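import Fermat.Agent.MR.Eis.Interface
import Fermat.Agent.INJ.Inst.SepAdapter
import Fermat.Agent.INJ.P16
import Fermat.Agent.S28.NewPrime
import Fermat.Agent.S28.FN7f
import Fermat.Agent.S28.BaseCase
import Fermat.Prelude.Thm_ModularCurve_coeff_jqModC_neg_one

/-!
# MR / Eis / Field : `κ = Kf k M` over `k(j)` is transcendental, finite, separable (task EIS-FIELD)
-/

set_option autoImplicit false

noncomputable section

namespace Fermat.Agent.MR.Eis

open AlgebraicCurve ModularCurve IntermediateField Polynomial

/-- transport of integrality from `E.map L.val ⊆ Ω` to `E ⊆ L`. -/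
theorem EisField_isIntegral_of_map {k Ω : Type} [Field k] [Field Ω] [Algebra k Ω]
    (L : IntermediateField k Ω) (E : IntermediateField k L) (x : L)
    (h : IsIntegral (E.map L.val) (x : Ω)) : IsIntegral E x := by
  obtain ⟨P, hP, hx⟩ := h
  let e : E ≃ₐ[k] E.map L.val := IntermediateField.equivMap E L.val
  refine ⟨P.map (e.symm : E.map L.val →+* E), hP.map _, ?_⟩
  apply L.val.toRingHom.injective
  rw [map_zero, Polynomial.eval₂_map, Polynomial.hom_eval₂]
  rw [← hx]
  congr 1
  ext c
  obtain ⟨c', rfl⟩ := e.surjective c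
  simp only [RingHom.comp_apply, RingHom.coe_coe, AlgEquiv.symm_apply_apply]
  rfl

/-- abstract form: a field generated over `k` by finitely many elements integral over `k(j)` is
finite over `k(j)`. -/
theorem EisField_finite_abs {k Ω : Type} [Field k] [Field Ω] [Algebra k Ω]
    (S : Set Ω) (hS : S.Finite) (L : IntermediateField k Ω)
    (hL : L = IntermediateField.adjoin k S) (j : L)
    (hint : ∀ y ∈ S, IsIntegral (IntermediateField.adjoin k {(j : Ω)}) y) :
    FiniteDimensional k⟮j⟯ L := by
  have hmap : (k⟮j⟯ : IntermediateField k L).map L.val =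
      IntermediateField.adjoin k {(j : Ω)} := by
    rw [IntermediateField.adjoin_map, Set.image_singleton]
    rfl
  let S' : Set L := {x | (x : Ω) ∈ S}
  have hS'fin : S'.Finite :=
    hS.preimage (f := fun x : L => (x : Ω)) (Subtype.val_injective.injOn)
  have hS'int : ∀ x ∈ S', IsIntegral k⟮j⟯ x := by
    intro x hx
    apply EisField_isIntegral_of_map L k⟮j⟯ x
    rw [hmap]
    exact hint _ hx
  have hS'top : IntermediateField.adjoin k S' = ⊤ := by
    apply IntermediateField.map_injective L.val
    rw [IntermediateField.adjoin_map]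
    have himg : (L.val '' S') = S := by
      ext y
      constructor
      · rintro ⟨x, hx, rfl⟩
        exact hx
      · intro hy
        exact ⟨⟨y, hL ▸ IntermediateField.subset_adjoin k _ hy⟩, hy, rfl⟩
    rw [himg, ← AlgHom.fieldRange_eq_map, IntermediateField.fieldRange_val, hL]
  have hS'top2 : IntermediateField.adjoin k⟮j⟯ S' = ⊤ := by
    apply IntermediateField.restrictScalars_injective k
    rw [IntermediateField.restrictScalars_top, eq_top_iff, ← hS'top,
      IntermediateField.adjoin_le_iff]
    intro x hx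
    exact IntermediateField.subset_adjoin k⟮j⟯ S' hx
  have : Finite S' := hS'fin
  have h1 : FiniteDimensional k⟮j⟯ (IntermediateField.adjoin k⟮j⟯ S') :=
    IntermediateField.finiteDimensional_adjoin hS'int
  rw [hS'top2] at h1
  exact (IntermediateField.topEquiv (F := k⟮j⟯) (E := L)).toLinearEquiv.finiteDimensional

theorem EisField_finite_divisorExpansions (k : Type) [Field k] (M : ℕ) [NeZero M] :
    (divisorExpansionsC k M).Finite := by
  have : divisorExpansionsC k M ⊆ (fun d => S28.jd k d) '' (M.divisors : Set ℕ) := by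
    rintro x ⟨d, hd, hdM, rfl⟩
    refine ⟨d, ?_, ?_⟩
    · simp [Nat.mem_divisors, hdM, NeZero.ne M]
    · simp only [S28.jd, S28.Vq_eq]
  exact (Set.Finite.image _ (Finset.finite_toSet _)).subset this

theorem stmt_Field : Stmt_Field := by
  intro k _ _ M _ j hj
  have htr : Transcendental k j := by
    intro h
    have h1 := h.algHom (S28.Kf k M).val
    change IsAlgebraic k (j : LaurentSeries k) at h1
    rw [hj] at h1
    exact S28.Base.transcendental_j h1
  have hfin : FiniteDimensional k⟮j⟯ (S28.Kf k M) := by
    refine EisField_finite_abs (divisorExpansionsC k M)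
      (EisField_finite_divisorExpansions k M) (S28.Kf k M) rfl j ?_
    rintro y ⟨d, hd, hdM, rfl⟩
    have h1 := S28.NewPrime.isIntegral_jd (k := k) d (Nat.pos_of_ne_zero (NeZero.ne d))
      (fun r hr _ => S28.BC.HasModPoly.map (Int.castRingHom k) (S28.FN7.hasModPoly_int hr))
    rw [S28.Ej, S28.jd, S28.jd, S28.Vq_eq, S28.Vq_eq, qExpand_one_apply] at h1
    rw [hj]
    exact h1
  refine ⟨htr, hfin, ?_⟩
  refine INJ.Inst.stmt_Sep_of_SepL INJ.stmt_SepL k (S28.Kf k M) j ⟨-1, ?_⟩
    (Algebra.IsAlgebraic.of_finite _ _)
  rw [hj, ModularCurve.coeff_jqModC_neg_one]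
  simp

end Fermat.Agent.MR.Eis

end
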