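import Fermat.Agent.MR.Eis.Interface
import Fermat.Agent.S18.Const
import Fermat.Agent.S18.Glue28
import Fermat.Agent.S24.PlaceBasic
import Fermat.Agent.S28.BaseChange
import Fermat.Agent.ES.Mid.HF1
import Fermat.Agent.ES.Mid.HF3
import Fermat.Agent.BR.Inst.Defs

/-!
# MR / Eis : [HORD] `Nbar_ℓ` preserves "`p ∣ ord_x` off the cusps" (`Stmt_HeckeOrd`), assembly.
-/

set_option autoImplicit false
set_option synthInstance.maxHeartbeats 400000

noncomputable section

namespace Fermat.Agent.MR.Eis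

open AlgebraicCurve ModularCurve IntermediateField Polynomial IsDedekindDomain
open Fermat.Agent.S24 (Qbar FF polyRing intRing)
open Fermat.Agent.ES.Mid (formalN twProd compress tw)
open Fermat.Agent.INJ (IsInt)
open Fermat.Agent.INJ.Inst (kA)
open scoped IntermediateField.algebraAdjoinAdjoin

/-! ### integrality over `K[t]` through `K[X][X]` -/

section IntPoly

variable {K F : Type*} [Field K] [Field F] [Algebra K F]

theorem HO_isInt_iff (t x : F) :
    IsInt K t x ↔ ∃ Φ : K[X][X], Φ.Monic ∧ Φ.eval₂ ((aeval t : K[X] →ₐ[K] F) : K[X] →+* F) x = 0 := by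
  unfold IsInt
  set R := Algebra.adjoin K {t} with hR
  let tR : R := ⟨t, Algebra.subset_adjoin (Set.mem_singleton t)⟩
  let φ : K[X] →+* R := ((aeval tR : K[X] →ₐ[K] R) : K[X] →+* R)
  have hcomp : (algebraMap R F).comp φ = ((aeval t : K[X] →ₐ[K] F) : K[X] →+* F) := by
    apply Polynomial.ringHom_ext
    · intro a
      simp only [RingHom.comp_apply, φ, RingHom.coe_coe, aeval_C]
      rfl
    · simp only [RingHom.comp_apply, φ, RingHom.coe_coe, aeval_X]
      rfl
  have hsurj : Function.Surjective φ := by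
    rintro ⟨y, hy⟩
    have hy' : y ∈ (aeval t : K[X] →ₐ[K] F).range := by
      rw [← Algebra.adjoin_singleton_eq_range_aeval]; exact hy
    obtain ⟨P, rfl⟩ := hy'
    refine ⟨P, Subtype.ext ?_⟩
    have := congrArg (fun f : K[X] →+* F => f P) hcomp
    exact this
  constructor
  · rintro ⟨p, hp, hpx⟩
    obtain ⟨Φ, hΦmap, -, hΦ⟩ := Polynomial.lifts_and_degree_eq_and_monic
      ((Polynomial.mem_lifts p).2 (Polynomial.map_surjective φ hsurj p)) hp
    refine ⟨Φ, hΦ, ?_⟩
    rw [← hcomp, ← Polynomial.eval₂_map, hΦmap]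
    exact hpx
  · rintro ⟨Φ, hΦ, hx⟩
    refine ⟨Φ.map φ, hΦ.map φ, ?_⟩
    rw [Polynomial.eval₂_map, hcomp]
    exact hx

/-- descent of integrality along an (injective) homomorphism of fields. -/
theorem HO_isInt_of_map {F' : Type*} [Field F'] [Algebra K F'] (W : F →ₐ[K] F') {t x : F}
    (h : IsInt K (W t) (W x)) : IsInt K t x := by
  rw [HO_isInt_iff] at h ⊢
  obtain ⟨Φ, hΦ, hx⟩ := h
  refine ⟨Φ, hΦ, W.injective ?_⟩
  rw [map_zero, ← hx]
  have h1 := Polynomial.hom_eval₂ Φ ((aeval t : K[X] →ₐ[K] F) : K[X] →+* F) (W : F →+* F') x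
  have h2 : (W : F →+* F').comp ((aeval t : K[X] →ₐ[K] F) : K[X] →+* F) =
      ((aeval (W t) : K[X] →ₐ[K] F') : K[X] →+* F') := by
    apply Polynomial.ringHom_ext
    · intro a
      simp
    · simp
  rw [h2] at h1
  exact h1

theorem HO_isInt_prod {ι : Type*} (s : Finset ι) (t : F) (f : ι → F)
    (h : ∀ i ∈ s, IsInt K t (f i)) : IsInt K t (∏ i ∈ s, f i) :=
  IsIntegral.prod f h

end IntPoly

/-! ### the abstract statement -/

section Abs

variable {k : Type} [Field k] [IsAlgClosed k]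

set_option maxHeartbeats 1600000 in
theorem HO_abs (hD : Stmt_Ded) (hAv : Stmt_Avoid) (p : ℕ) [Fact p.Prime] [CharP k p]
    (κ : IntermediateField k (LaurentSeries k)) (j : κ)
    (htr : Transcendental k j) [FiniteDimensional k⟮j⟯ κ] [Algebra.IsSeparable k⟮j⟯ κ]
    (Nb : LaurentSeries k → LaurentSeries k) (hone : Nb 1 = 1)
    (hmul : ∀ x y, Nb (x * y) = Nb x * Nb y) (hmem : ∀ x ∈ κ, Nb x ∈ κ)
    (ι : Type) [Fintype ι] (V0 : LaurentSeries k →+* LaurentSeries k)
    (cc : ι → LaurentSeries k →+* LaurentSeries k)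
    (hV0 : ∀ a : k, V0 (algebraMap k (LaurentSeries k) a) = algebraMap k (LaurentSeries k) a)
    (hprod : ∀ x, V0 (Nb x) = ∏ i, cc i x)
    (hint : ∀ x, IsInt k (j : LaurentSeries k) x → ∀ i, IsInt k (V0 (j : LaurentSeries k)) (cc i x))
    (hpull : ∀ y, IsInt k (V0 (j : LaurentSeries k)) (V0 y) → IsInt k (j : LaurentSeries k) y)
    (z w : κ) (hz : z ≠ 0) (hw : (w : LaurentSeries k) = Nb (z : LaurentSeries k))
    (hdiv : ∀ x : Place k κ, 0 ≤ x.ord j → (p : ℤ) ∣ x.ord z) :
    ∀ x : Place k κ, 0 ≤ x.ord j → (p : ℤ) ∣ x.ord w := by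
  classical
  intro x hx
  have hp : p.Prime := Fact.out
  have hDed : IsDedekindDomain (intRing k j) := S18G.intRing_isDedekindDomain_of_sep htr
  have hFr : IsFractionRing (intRing k j) κ := S24.intRing_isFractionRing (K := k) j
  have hchκ : CharP κ p := charP_of_injective_algebraMap (algebraMap k κ).injective p
  have hj0 : j ≠ 0 := fun h => htr (h ▸ isAlgebraic_zero)
  have hjx : j ∈ x.toValuationSubring := S24.mem_of_ord_nonneg x hj0 hx
  obtain ⟨P, rfl⟩ := S24.exists_heightOneSpectrum_of_le (R := intRing k j) x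
    (fun r => S24.intRing_le_valuationSubring x hjx r)
  -- `j` as an element of `R`
  have hjint : IsIntegral (polyRing k j) j :=
    isIntegral_algebraMap (R := polyRing k j) (A := κ)
      (x := (⟨j, Algebra.subset_adjoin (Set.mem_singleton j)⟩ : polyRing k j))
  let jR : intRing k j := ⟨j, hjint⟩
  -- the hypothesis of `Stmt_Ded`
  have hval : ∀ Q : HeightOneSpectrum (intRing k j),
      ∃ n : ℤ, Q.valuation κ z = WithZero.exp ((p : ℤ) * n) := by
    intro Q
    have h1 := hdiv (Place.ofHeightOneSpectrum (K := k) Q)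
      (S24.ord_algebraMap_nonneg (K := k) (F := κ) Q jR)
    rw [S24.ord_ofHeightOneSpectrum Q z hz] at h1
    obtain ⟨d, hd⟩ := h1
    refine ⟨-d, ?_⟩
    have h0 : Q.valuation κ z ≠ 0 := (Valuation.ne_zero_iff _).2 hz
    rw [← WithZero.exp_log h0]
    congr 1
    linarith
  have hded := hD (intRing k j) κ p z hp.pos hz hval
  -- the subspace `V`
  let V : Submodule k (intRing k j) :=
    { carrier := {r | ∃ g : κ, (r : κ) = g ^ p * z}
      add_mem' := by
        rintro a b ⟨g₁, h₁⟩ ⟨g₂, h₂⟩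
        refine ⟨g₁ + g₂, ?_⟩
        rw [add_pow_char, add_mul, ← h₁, ← h₂]
        rfl
      zero_mem' := ⟨0, by rw [zero_pow hp.ne_zero, zero_mul]; rfl⟩
      smul_mem' := by
        rintro c a ⟨g, hg⟩
        obtain ⟨e, he⟩ := IsAlgClosed.exists_pow_nat_eq c hp.pos
        refine ⟨algebraMap k κ e * g, ?_⟩
        rw [mul_pow, ← map_pow, he, mul_assoc, ← hg]
        show ((c • a : intRing k j) : κ) = _
        rw [Algebra.smul_def]
        rfl }
  have hV : ∀ P' : Ideal (intRing k j), P'.IsPrime → ∃ r ∈ V, r ∉ P' := by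
    intro P' hP'
    obtain ⟨g, r, -, hr, hrP⟩ := hded P' hP'
    exact ⟨r, ⟨g, hr⟩, hrP⟩
  -- the ring homs
  let e0 : intRing k j →+* LaurentSeries k := (algebraMap κ (LaurentSeries k)).comp
    (algebraMap (intRing k j) κ)
  have he0 : ∀ r : intRing k j, e0 r = ((r : κ) : LaurentSeries k) := fun r => rfl
  have he0inj : Function.Injective e0 := by
    intro a b hab
    exact Subtype.ext (Subtype.ext hab)
  let c₀ : intRing k j →+* LaurentSeries k := V0.comp e0
  let c : ι → intRing k j →+* LaurentSeries k := fun i => (cc i).comp e0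
  have hc₀inj : Function.Injective c₀ := V0.injective.comp he0inj
  have hrint : ∀ r : intRing k j, IsInt k (j : LaurentSeries k) (e0 r) := by
    intro r
    exact BR.Inst.isInt_map κ.val (t := j) (x := (r : κ)) r.2
  have hψ : c₀.comp ((aeval jR : k[X] →ₐ[k] intRing k j) : k[X] →+* intRing k j) =
      ((aeval (V0 (j : LaurentSeries k)) : k[X] →ₐ[k] LaurentSeries k) :
        k[X] →+* LaurentSeries k) := by
    apply Polynomial.ringHom_ext
    · intro a
      simp only [RingHom.comp_apply, RingHom.coe_coe, aeval_C]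
      exact hV0 a
    · simp only [RingHom.comp_apply, RingHom.coe_coe, aeval_X]
      rfl
  have hcint : ∀ i r, c₀.IsIntegralElem (c i r) := by
    intro i r
    obtain ⟨Φ, hΦ, hΦx⟩ := (HO_isInt_iff _ _).1 (hint _ (hrint r) i)
    refine ⟨Φ.map ((aeval jR : k[X] →ₐ[k] intRing k j) : k[X] →+* intRing k j), hΦ.map _, ?_⟩
    rw [Polynomial.eval₂_map, hψ]
    exact hΦx
  obtain ⟨r, ⟨g, hg⟩, hr⟩ := hAv k (intRing k j) (LaurentSeries k) ι c₀ c hc₀inj hcint V hV
    P.asIdeal P.isPrime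
  -- `n = Nb r`
  have hnκ : Nb (e0 r) ∈ κ := hmem _ (r : κ).2
  have hnint : IsInt k (j : LaurentSeries k) (Nb (e0 r)) := by
    apply hpull
    rw [hprod]
    exact HO_isInt_prod _ _ _ (fun i _ => hint _ (hrint r) i)
  have hnint' : IsInt k j (⟨Nb (e0 r), hnκ⟩ : κ) := HO_isInt_of_map κ.val hnint
  let n : intRing k j := ⟨⟨Nb (e0 r), hnκ⟩, hnint'⟩
  have hnP : n ∉ P.asIdeal := hr n (hprod _)
  have hn0 : n ≠ 0 := fun h => hnP (h ▸ P.asIdeal.zero_mem)
  have hord0 : (Place.ofHeightOneSpectrum (K := k) P).ord (algebraMap (intRing k j) κ n) = 0 := by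
    have h1 := S24.ord_algebraMap_nonneg (K := k) (F := κ) P n
    have h2 := (S24.ord_algebraMap_pos_iff (K := k) (F := κ) P n hn0).not.2 hnP
    omega
  -- `n = G ^ p * w`
  have hpow : ∀ (y : LaurentSeries k) (m : ℕ), Nb (y ^ m) = Nb y ^ m := by
    intro y m
    induction m with
    | zero => rw [pow_zero, pow_zero, hone]
    | succ m ih => rw [pow_succ, pow_succ, hmul, ih]
  let G : κ := ⟨Nb (g : LaurentSeries k), hmem _ g.2⟩
  have hnG : algebraMap (intRing k j) κ n = G ^ p * w := by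
    apply Subtype.ext
    show Nb (e0 r) = ((G ^ p * w : κ) : LaurentSeries k)
    rw [he0, hg]
    push_cast
    rw [hmul, hpow, hw]
  have hn0' : algebraMap (intRing k j) κ n ≠ 0 := by
    simpa using (IsFractionRing.injective (intRing k j) κ).ne hn0
  have hG0 : G ≠ 0 := by
    rintro h
    rw [hnG, h, zero_pow hp.ne_zero, zero_mul] at hn0'
    exact hn0' rfl
  have hw0 : w ≠ 0 := by
    rintro h
    rw [hnG, h, mul_zero] at hn0'
    exact hn0' rfl
  rw [hnG, Place.ord_mul _ (pow_ne_zero _ hG0) hw0, ← zpow_natCast, Place.ord_zpow] at hord0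
  exact ⟨-(Place.ofHeightOneSpectrum (K := k) P).ord G, by linarith⟩

end Abs

/-! ### the instantiation -/

/-- `x(q) ↦ x(ζ q)` as a ring homomorphism. -/
def HO_twHom {R : Type*} [CommRing R] (ζ : Rˣ) : LaurentSeries R →+* LaurentSeries R where
  toFun := tw ζ
  map_one' := ES.Mid.HF1.tw_one_right ζ
  map_mul' := ES.Mid.HF1.tw_mul ζ
  map_zero' := by
    ext n
    simp
  map_add' := fun x y => by
    ext n
    simp [mul_add]

/-- **[HORD]** -/
theorem stmt_HeckeOrd (hD : Stmt_Ded) (hAv : Stmt_Avoid) (hC : Stmt_Conj) (hN : Stmt_NMemK)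
    (hF : Stmt_Field) : Stmt_HeckeOrd := by
  intro p hp A hA M _ hpM ℓ _ hℓ hℓM hℓp ζ' hζ' j z w hj hz hw hdiv
  have : Fact p.Prime := ⟨hp⟩
  have hAC : IsAlgClosed (kA A) := S18G.isAlgClosed_kA A
  have hch : CharP (kA A) p := ES.Mid.HF3.charP_residue A p hA
  obtain ⟨htr, hfd, hsep⟩ := hF (kA A) M j hj
  have hℓk : (ℓ : kA A) ≠ 0 := by
    rw [Ne, CharP.cast_eq_zero_iff (kA A) p ℓ]
    exact fun h => hℓp ((Nat.prime_dvd_prime_iff_eq hp hℓ).1 h).symm
  obtain ⟨c1, c2, c3⟩ := hC (kA A) ℓ hℓ hℓk ζ' hζ'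
  obtain ⟨hone, hmul⟩ := ES.Mid.HF1.hf_mul (kA A) ℓ ζ' hζ'
  refine HO_abs hD hAv p (S28.Kf (kA A) M) j htr (formalN ℓ ζ') hone hmul
    (hN p hp A hA M hpM ℓ hℓ hℓM hℓp ζ' hζ') (Option (Fin ℓ)) (S28.Vq (kA A) ℓ)
    (fun i => i.elim (S28.Vq (kA A) (ℓ ^ 2)) (fun b => HO_twHom (ζ' ^ (b : ℕ))))
    ?_ ?_ ?_ ?_ z w hz hw hdiv
  · intro a
    have h : algebraMap (kA A) (LaurentSeries (kA A)) a = HahnSeries.C a := by
      rw [algebraMap_laurentSeries_eq_single]
      rfl
    rw [h]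
    exact S28.BC.Vq_C ℓ a
  · intro x
    rw [c1, Fintype.prod_option, Finset.prod_range]
    rfl
  · intro x hx i
    rw [hj] at hx ⊢
    cases i with
    | none => exact (c2 x hx).1
    | some b => exact (c2 x hx).2 b
  · intro y hy
    rw [hj] at hy ⊢
    exact c3 y hy

end Fermat.Agent.MR.Eis

end
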