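import Fermat.Agent.MR.Eis.Interface
import Fermat.Agent.ORD.Dep.LiftFix
import Fermat.Agent.ORD.Dep.NMem

/-!
# MR / Eis, package EIS-NMEMK (helper91): `Nbar_ℓ` preserves `κ = Kf (kA A) M`.
-/

set_option autoImplicit false

noncomputable section

namespace Fermat.Agent.MR.Eis

open AlgebraicCurve ModularCurve IntermediateField Polynomial IsDedekindDomain
open Fermat.Agent.S24 (Qbar FF)
open Fermat.Agent.ES.Mid (formalN twProd compress tw)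
open Fermat.Agent.INJ (IsInt)
open Fermat.Agent.INJ.Inst (kA)
open Fermat.Agent.ORD.Dep (GO rd cst)

/-- `N_ℓ 0 = 0`. -/
theorem NMemK_formalN_zero {R : Type} [CommRing R] (ℓ : ℕ) [NeZero ℓ] (ζ : Rˣ) :
    formalN ℓ ζ (0 : LaurentSeries R) = 0 := by
  rw [formalN, map_zero, zero_mul]

theorem stmt_NMemK (hR : Stmt_RedN) : Stmt_NMemK := by
  intro p hp A hA M _ hpM ℓ _ hℓ hℓM hℓp ζ' hζ' x hx
  by_cases hx0 : x = 0
  · rw [hx0, NMemK_formalN_zero]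
    exact zero_mem _
  obtain ⟨y, -, hyGO, hyx⟩ := ORD.Dep.LF_lift A M ⊥ (ORD.Dep.LF_bot A) x hx
  obtain ⟨ζ₀, hζ₀⟩ : ∃ ζ : Qbar, IsPrimitiveRoot ζ ℓ :=
    HasEnoughRootsOfUnity.exists_primitiveRoot Qbar ℓ
  obtain ⟨ζ, rfl⟩ : ∃ ζ : Qbarˣ, (ζ : Qbar) = ζ₀ :=
    ⟨(hζ₀.isUnit (NeZero.ne ℓ)).unit, rfl⟩
  have hζ : IsPrimitiveRoot ζ ℓ := IsPrimitiveRoot.coe_units_iff.1 hζ₀
  obtain ⟨v, hv, -, -⟩ := ORD.Dep.stmt_NMem M ℓ hℓ hℓM ζ hζ y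
  obtain ⟨h1, h2⟩ := hR p hp A hA ℓ hℓ hℓp ζ hζ ζ' hζ' (y : LaurentSeries Qbar) hyGO
    (by rw [hyx]; exact hx0)
  rw [← hv] at h1 h2
  have := ORD.Dep.LF_rep p hp A hA M hpM v h1
  rw [h2, hyx] at this
  exact this

end Fermat.Agent.MR.Eis

end
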