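import Fermat.Agent.MR.Eis.Interface
import Fermat.Agent.ORD.Dep.GOApi
import Fermat.Agent.ES.Mid.HF1

/-!
# MR / Eis, task EIS-REDN (helper77): the reduction mod `p` commutes with `N_ℓ`, `ℓ ≠ p`
-/

set_option autoImplicit false
set_option linter.style.haveILetI false

noncomputable section

namespace Fermat.Agent.MR.Eis

open ModularCurve Polynomial
open Fermat.Agent.S24 (Qbar FF)
open Fermat.Agent.ES.Mid (formalN twProd compress tw)
open Fermat.Agent.ES.Mid.HF1 (hf_mul hf_map hf_indep)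
open Fermat.Agent.INJ.Inst (kA)
open Fermat.Agent.INJ.Inst.Gauss (IsRatio inc rho)
open Fermat.Agent.ORD.Dep (GO rd cst rd_eq)

/-- `ℓ ≠ 0` in the residue field. -/
theorem RedN_natCast_ne_zero {p : ℕ} (A : ValuationSubring Qbar) (hA : A.LiesOverPrime p) {N : ℕ}
    (hN : Nat.Coprime N p) : (N : kA A) ≠ 0 := by
  have hl : (p : kA A) = 0 := by
    obtain ⟨ha, hm⟩ := ValuationSubring.mem_nonunits_iff_exists_mem_maximalIdeal.1 hA
    have h1 : IsLocalRing.residue A ⟨(p : Qbar), ha⟩ = 0 := (IsLocalRing.residue_eq_zero_iff _).2 hm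
    have h2 : (⟨(p : Qbar), ha⟩ : A) = (p : A) := Subtype.ext (by simp)
    rw [h2, map_natCast] at h1
    exact h1
  intro h0
  have hb : (N : ℤ) * Nat.gcdA N p + (p : ℤ) * Nat.gcdB N p = 1 := by
    have := Nat.gcd_eq_gcd_ab N p
    rw [hN.gcd_eq_one] at this
    exact_mod_cast this.symm
  have h1 := congrArg (Int.cast : ℤ → kA A) hb
  push_cast at h1
  rw [h0, hl, zero_mul, zero_mul, add_zero] at h1
  exact zero_ne_one h1

/-- a root of unity is a unit of `A`. -/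
theorem RedN_exists_unit (A : ValuationSubring Qbar) {ℓ : ℕ} (hℓ : ℓ ≠ 0) (ζ : Qbarˣ)
    (hζ : ζ ^ ℓ = 1) : ∃ ζA : Aˣ, Units.map (A.subtype : A →* Qbar) ζA = ζ := by
  have h1 : A.valuation (ζ : Qbar) ^ ℓ = 1 := by
    rw [← map_pow, ← Units.val_pow_eq_pow_val, hζ, Units.val_one, map_one]
  have h2 : A.valuation (ζ : Qbar) = 1 := by
    rcases lt_trichotomy (A.valuation (ζ : Qbar)) 1 with h | h | h
    · exact absurd h1 (pow_lt_one₀ zero_le h hℓ).ne
    · exact h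
    · exact absurd h1 (one_lt_pow₀ h hℓ).ne'
  have hm : (ζ : Qbar) ∈ A := (A.valuation_le_one_iff _).1 h2.le
  obtain ⟨u, hu⟩ := (A.valuation_eq_one_iff ⟨ζ, hm⟩).2 h2
  refine ⟨u, Units.ext ?_⟩
  show ((u : A) : Qbar) = ζ
  rw [hu]

/-- the reduction of a primitive `ℓ`-th root of unity is primitive (`ℓ ≠ 0` in the residue field). -/
theorem RedN_primitive (A : ValuationSubring Qbar) {ℓ : ℕ} (hℓ : 0 < ℓ) (hℓk : (ℓ : kA A) ≠ 0)
    (ζA : Aˣ) (hζ : IsPrimitiveRoot ζA ℓ) :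
    IsPrimitiveRoot (Units.map (IsLocalRing.residue A : A →* kA A) ζA) ℓ := by
  haveI : NeZero (ℓ : kA A) := ⟨hℓk⟩
  have h1 : IsPrimitiveRoot (ζA : A) ℓ := IsPrimitiveRoot.coe_units_iff.2 hζ
  have h2 := (h1.isRoot_cyclotomic hℓ).map (f := IsLocalRing.residue A)
  rw [map_cyclotomic, isRoot_cyclotomic_iff] at h2
  exact IsPrimitiveRoot.coe_units_iff.1 h2

/-- `formalN` does not vanish on nonzero series over a field. -/
theorem RedN_formalN_ne_zero {k : Type} [Field k] (ℓ : ℕ) [NeZero ℓ] (ζ : kˣ)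
    (hζ : IsPrimitiveRoot ζ ℓ) {y : LaurentSeries k} (hy : y ≠ 0) : formalN ℓ ζ y ≠ 0 := by
  intro h
  have h1 := (hf_mul k ℓ ζ hζ).2 y y⁻¹
  rw [mul_inv_cancel₀ hy, (hf_mul k ℓ ζ hζ).1, h, zero_mul] at h1
  exact one_ne_zero h1

theorem RedN_formalN_div {k : Type} [Field k] (ℓ : ℕ) [NeZero ℓ] (ζ : kˣ)
    (hζ : IsPrimitiveRoot ζ ℓ) (a : LaurentSeries k) {b : LaurentSeries k} (hb : b ≠ 0) :
    formalN ℓ ζ (a / b) = formalN ℓ ζ a / formalN ℓ ζ b := by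
  rw [eq_div_iff (RedN_formalN_ne_zero ℓ ζ hζ hb), ← (hf_mul k ℓ ζ hζ).2, div_mul_cancel₀ _ hb]

theorem stmt_RedN : Stmt_RedN := by
  intro p hp A hA ℓ _ hℓ hℓp ζ hζ ζ' hζ' x hx hx0
  obtain ⟨f, g, hr⟩ := hx
  obtain ⟨ζA, hζA⟩ := RedN_exists_unit A hℓ.ne_zero ζ hζ.pow_eq_one
  have hζA' : IsPrimitiveRoot ζA ℓ := by
    refine IsPrimitiveRoot.of_map_of_injective (f := Units.map (A.subtype : A →* Qbar)) ?_
      (Units.map_injective A.subtype_injective)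
    rw [hζA]
    exact hζ
  have hℓk : (ℓ : kA A) ≠ 0 :=
    RedN_natCast_ne_zero A hA ((Nat.coprime_primes hℓ hp).2 hℓp)
  have hbar := RedN_primitive A hℓ.pos hℓk ζA hζA'
  -- transport
  have hinc : ∀ y : LaurentSeries A, inc A (formalN ℓ ζA y) = formalN ℓ ζ (inc A y) := by
    intro y
    have := hf_map A Qbar A.subtype ℓ ζA y
    rw [hζA] at this
    exact this
  have hrho : ∀ y : LaurentSeries A, rho (IsLocalRing.residue A) (formalN ℓ ζA y) =
      formalN ℓ ζ' (rho (IsLocalRing.residue A) y) := by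
    intro y
    have := hf_map A (kA A) (IsLocalRing.residue A) ℓ ζA y
    rw [hf_indep (kA A) ℓ _ ζ' hbar hζ'] at this
    exact this
  have hr' : IsRatio (IsLocalRing.residue A) (formalN ℓ ζ x) (formalN ℓ ζA f)
      (formalN ℓ ζA g) := by
    refine ⟨?_, ?_⟩
    · rw [hrho]
      exact RedN_formalN_ne_zero ℓ ζ' hζ' hr.1
    · rw [hinc, hinc, ← (hf_mul Qbar ℓ ζ hζ).2, hr.2]
  refine ⟨⟨_, _, hr'⟩, ?_⟩
  rw [rd_eq hr', rd_eq hr, hrho, hrho, RedN_formalN_div ℓ ζ' hζ' _ hr.1]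

end Fermat.Agent.MR.Eis

end
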