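import Fermat.Agent.MR.Eis.Interface
import Fermat.Agent.MR.Skel.Interface
import Fermat.Agent.ES.Mid.HF1

/-!
# MR / Eis : the predicate `IsB` and the adapter `Stmt_EIS4 → MR.Skel.Stmt_EIS IsB`.
-/

set_option autoImplicit false
set_option synthInstance.maxHeartbeats 400000

noncomputable section

namespace Fermat.Agent.MR.Eis

open AlgebraicCurve ModularCurve
open Fermat.Agent.S24 (Qbar FF)
open Fermat.Agent.ES.Mid (formalN twProd compress tw)
open Fermat.Agent.INJ.Inst (kA)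
open Fermat.Agent.ORD.Dep (GO rd cst)
open Fermat.Agent.CAR.Unit (etaLser lf4 lx1)

/-- **the Eisenstein element**: `bb` is the reduction at `v_∞` of `x₁ = f(q^p) / f(q) ∈ FF (M p)`,
`f = θ² = η(2z)^10 / (η(z)^4 η(4z)^4)`. -/
def IsB (A : ValuationSubring Qbar) (p M : ℕ) (bb : S28.Kf (kA A) M) : Prop :=
  ∃ b : FF (M * p), (b : LaurentSeries Qbar) = etaLser Qbar 0 (lx1 lf4 p) ∧
    (bb : LaurentSeries (kA A)) = rd A (b : LaurentSeries Qbar)

section Cst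

variable {R : Type*} [CommRing R]

theorem SK_tw_C (ζ : Rˣ) (c : R) : tw ζ (HahnSeries.C c : LaurentSeries R) = HahnSeries.C c := by
  ext n
  rw [Fermat.Agent.ES.Mid.tw_coeff, HahnSeries.C_apply, HahnSeries.coeff_single]
  split_ifs with h
  · subst h
    simp
  · simp

theorem SK_compress_C (ℓ : ℕ) [NeZero ℓ] (c : R) :
    compress ℓ (HahnSeries.C c : LaurentSeries R) = HahnSeries.C c := by
  ext n
  rw [Fermat.Agent.ES.Mid.compress_coeff, HahnSeries.C_apply, HahnSeries.coeff_single,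
    HahnSeries.coeff_single]
  have hℓ : (ℓ : ℤ) ≠ 0 := by exact_mod_cast NeZero.ne ℓ
  by_cases h : n = 0
  · subst h
    simp
  · rw [if_neg h, if_neg (mul_ne_zero hℓ h)]

theorem SK_formalN_C (ℓ : ℕ) [NeZero ℓ] (ζ : Rˣ) (c : R) :
    formalN ℓ ζ (HahnSeries.C c : LaurentSeries R) = HahnSeries.C (c ^ (ℓ + 1)) := by
  rw [formalN, twProd, qExpand_C]
  simp only [SK_tw_C]
  rw [Finset.prod_const, Finset.card_range, ← map_pow, SK_compress_C, ← map_mul, pow_succ, mul_comm]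

end Cst

theorem SK_cst_eq (c : Qbar) : cst c = (HahnSeries.C c : LaurentSeries Qbar) := by
  show algebraMap Qbar (LaurentSeries Qbar) c = _
  rw [algebraMap_laurentSeries_eq_single]
  rfl

/-- **the adapter**. -/
theorem skel_EIS (h : Stmt_EIS4) : MR.Skel.Stmt_EIS IsB := by
  intro p _ hp _ A hA M _ _ hpM h4 jb bb hjb hB u ub _ hred hres ℓ _ hℓ hℓM a hrel hna
  obtain ⟨b, hb, hbb⟩ := hB
  obtain ⟨hub0, c, hc, hrd⟩ := hred
  obtain ⟨δ, hδ⟩ := hres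
  obtain ⟨ζ₀, hζ₀⟩ : ∃ ζ : Qbar, IsPrimitiveRoot ζ ℓ :=
    HasEnoughRootsOfUnity.exists_primitiveRoot Qbar ℓ
  obtain ⟨ζ, rfl⟩ : ∃ ζ : Qbarˣ, (ζ : Qbar) = ζ₀ :=
    ⟨(hζ₀.isUnit (NeZero.ne ℓ)).unit, rfl⟩
  have hζ : IsPrimitiveRoot ζ ℓ := IsPrimitiveRoot.coe_units_iff.1 hζ₀
  obtain ⟨v, g, hv, hvg⟩ := hrel ζ hζ
  obtain ⟨-, hmul⟩ := ES.Mid.HF1.hf_mul Qbar ℓ ζ hζ
  let u' : FF (M * p) := algebraMap Qbar (FF (M * p)) c * u
  have hu' : (u' : LaurentSeries Qbar) = cst c * (u : LaurentSeries Qbar) := rfl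
  have hcc : cst c ≠ 0 := by
    rw [Ne, map_eq_zero]
    exact hc
  have heig : formalN ℓ ζ (u' : LaurentSeries Qbar) =
      cst (c ^ (ℓ + 1) * (c ^ a)⁻¹) * (u' : LaurentSeries Qbar) ^ a *
        (g : LaurentSeries Qbar) ^ p := by
    have h1 : formalN ℓ ζ (u : LaurentSeries Qbar) =
        (u : LaurentSeries Qbar) ^ a * (g : LaurentSeries Qbar) ^ p := by
      rw [← hv, hvg]
      push_cast
      rfl
    have h3 : cst (c ^ (ℓ + 1) * (c ^ a)⁻¹) = cst (c ^ (ℓ + 1)) * (cst c ^ a)⁻¹ := by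
      simp only [cst, map_mul, map_inv₀, map_zpow₀]
    rw [hu', hmul, h1, SK_cst_eq, SK_formalN_C, ← SK_cst_eq, ← SK_cst_eq, mul_zpow, h3]
    have h2 : cst c ^ a ≠ 0 := zpow_ne_zero _ hcc
    field_simp
  have hj : (jb : LaurentSeries (kA A)) = jqModC (kA A) := by
    rw [hjb, S28.jd, S28.Vq_eq, qExpand_one_apply]
  have hna' : ¬ (p : ℤ) ∣ (ℓ : ℤ) + 1 - a := fun hd => hna ((dvd_sub_comm).1 hd)
  have key := h p hp A hA M hpM h4 ℓ hℓ hℓM ζ hζ u' b g _ a δ heig hb hna' jb ub bb hj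
    (by rw [hu', hrd]) hub0 hbb (fun x hx => (hδ x).1 hx)
  intro x
  by_cases hx : 0 ≤ x.ord jb
  · exact key x hx
  · exact (hδ x).2 (not_le.1 hx)

end Fermat.Agent.MR.Eis

end
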