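import Fermat.Agent.MR.Eis.Interface
import Fermat.Agent.ORD.Dep.GOApi
import Fermat.Agent.ES.Mid.HF1
import Fermat.Agent.S18.Glue28
import Fermat.Agent.INJ.Inst.ChartS
import Fermat.Agent.CAR.Unit.SerCalc
import Fermat.Agent.CAR.Unit.ListCalc

/-!
# MR / Eis : EIS-TOP, reduction of the eigen relation; the contracts `Stmt_EIS`, `Stmt_EIS4`
-/

set_option autoImplicit false

noncomputable section

namespace Fermat.Agent.MR.Eis

open AlgebraicCurve ModularCurve IntermediateField Polynomial IsDedekindDomain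
open Fermat.Agent.S24 (Qbar FF)
open Fermat.Agent.ES.Mid (formalN twProd compress tw)
open Fermat.Agent.INJ.Inst (kA)
open Fermat.Agent.ORD.Dep
open Fermat.Agent.CAR.Unit (etaLser lf4 lx1)

theorem EisTop_zpow {A : ValuationSubring Qbar} {x : LaurentSeries Qbar} (hx : GO A x)
    (h : rd A x ≠ 0) (e : ℤ) : GO A (x ^ e) ∧ rd A (x ^ e) = rd A x ^ e := by
  rcases e with n | n
  · rw [Int.ofNat_eq_natCast, zpow_natCast, zpow_natCast]
    exact ⟨hx.pow n, rd_pow hx n⟩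
  · rw [zpow_negSucc, zpow_negSucc]
    have h1 := hx.pow (n + 1)
    have h2 : rd A (x ^ (n + 1)) ≠ 0 := by
      rw [rd_pow hx]
      exact pow_ne_zero _ h
    exact ⟨h1.inv h2, by rw [rd_inv h1 h2, rd_pow hx]⟩

theorem EisTop_ne_zero_of_rd {A : ValuationSubring Qbar} {x : LaurentSeries Qbar}
    (h : rd A x ≠ 0) : x ≠ 0 := by
  rintro rfl
  exact h rd_zero

/-- reduction of an eigen relation. -/
theorem EisTop_red (hR : Stmt_RedN) (hF : Stmt_ResF) (p : ℕ) (hp : p.Prime)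
    (A : ValuationSubring Qbar) (hA : A.LiesOverPrime p) (M : ℕ) [NeZero (M * p)] (hpM : ¬ p ∣ M)
    (h23 : 2 ∣ M ∨ 3 ∣ M) (ℓ : ℕ) [NeZero ℓ] (hℓ : ℓ.Prime) (hℓp : ℓ ≠ p) (ζ : Qbarˣ)
    (hζ : IsPrimitiveRoot ζ ℓ) (ζ' : (kA A)ˣ) (hζ' : IsPrimitiveRoot ζ' ℓ) (y h : FF (M * p))
    (e : ℤ) (c : Qbar)
    (hrel : formalN ℓ ζ (y : LaurentSeries Qbar) =
      cst c * (y : LaurentSeries Qbar) ^ e * (h : LaurentSeries Qbar) ^ p)
    (hy : rd A (y : LaurentSeries Qbar) ≠ 0) :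
    ∃ hb : S28.Kf (kA A) M, hb ≠ 0 ∧ formalN ℓ ζ' (rd A (y : LaurentSeries Qbar)) =
      rd A (y : LaurentSeries Qbar) ^ e * (hb : LaurentSeries (kA A)) ^ p := by
  have hAC : IsAlgClosed (kA A) := S18G.isAlgClosed_kA A
  have hGy := GO_of_rd_ne_zero hy
  obtain ⟨hGN, hrdN⟩ := hR p hp A hA ℓ hℓ hℓp ζ hζ ζ' hζ' _ hGy hy
  have hN0 : formalN ℓ ζ' (rd A (y : LaurentSeries Qbar)) ≠ 0 := by
    obtain ⟨h1, h2⟩ := ES.Mid.HF1.hf_mul (kA A) ℓ ζ' hζ'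
    intro h0
    have h3 := h2 (rd A (y : LaurentSeries Qbar)) (rd A (y : LaurentSeries Qbar))⁻¹
    rw [mul_inv_cancel₀ hy, h1, h0, zero_mul] at h3
    exact one_ne_zero h3
  have hNy0 : formalN ℓ ζ (y : LaurentSeries Qbar) ≠ 0 :=
    EisTop_ne_zero_of_rd (A := A) (by rw [hrdN]; exact hN0)
  have hh0 : h ≠ 0 := by
    rintro rfl
    apply hNy0
    rw [hrel]
    show _ * (0 : LaurentSeries Qbar) ^ p = 0
    rw [zero_pow hp.ne_zero, mul_zero]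
  obtain ⟨γ, hγ0, hGγ, hrdγ⟩ := exists_norm A (M * p) hh0
  obtain ⟨hGe, hrde⟩ := EisTop_zpow hGy hy e
  set H : LaurentSeries Qbar := cst γ * (h : LaurentSeries Qbar) with hH
  have hD : GO A ((y : LaurentSeries Qbar) ^ e * H ^ p) := hGe.mul (hGγ.pow p)
  have hrdD : rd A ((y : LaurentSeries Qbar) ^ e * H ^ p)
      = rd A (y : LaurentSeries Qbar) ^ e * rd A H ^ p := by
    rw [rd_mul hGe (hGγ.pow p), hrde, rd_pow hGγ]
  have hrdD0' : rd A (y : LaurentSeries Qbar) ^ e * rd A H ^ p ≠ 0 :=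
    mul_ne_zero (zpow_ne_zero _ hy) (pow_ne_zero _ hrdγ)
  have hrdD0 : rd A ((y : LaurentSeries Qbar) ^ e * H ^ p) ≠ 0 := by
    rw [hrdD]
    exact hrdD0'
  have hc₁ : cst (c * (γ ^ p)⁻¹) = formalN ℓ ζ (y : LaurentSeries Qbar)
      / ((y : LaurentSeries Qbar) ^ e * H ^ p) := by
    rw [eq_div_iff (EisTop_ne_zero_of_rd hrdD0), hrel, hH]
    have e1 : cst ((γ ^ p)⁻¹) * cst γ ^ p = 1 := by
      simp only [cst]
      rw [← map_pow, ← map_mul, inv_mul_cancel₀ (pow_ne_zero _ hγ0), map_one]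
    calc cst (c * (γ ^ p)⁻¹) * ((y : LaurentSeries Qbar) ^ e * (cst γ * (h : LaurentSeries Qbar)) ^ p)
        = cst c * (y : LaurentSeries Qbar) ^ e * (h : LaurentSeries Qbar) ^ p
            * (cst ((γ ^ p)⁻¹) * cst γ ^ p) := by
          rw [cst_mul, mul_pow]
          ring
      _ = _ := by rw [e1, mul_one]
  have hGc : GO A (cst (c * (γ ^ p)⁻¹)) := by
    rw [hc₁]
    exact hGN.div hD hrdD0
  have hrdc : rd A (cst (c * (γ ^ p)⁻¹)) = formalN ℓ ζ' (rd A (y : LaurentSeries Qbar))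
      / (rd A (y : LaurentSeries Qbar) ^ e * rd A H ^ p) := by
    rw [hc₁, rd_div hGN hD hrdD0, hrdN, hrdD]
  have hcA := mem_of_GO_cst hGc
  rw [rd_cst hcA] at hrdc
  obtain ⟨ε, hε⟩ := IsAlgClosed.exists_pow_nat_eq
    (IsLocalRing.residue A ⟨c * (γ ^ p)⁻¹, hcA⟩) hp.pos
  have hmem : rd A H ∈ S28.Kf (kA A) M :=
    hF p hp A hA M hpM h23 (algebraMap Qbar (FF (M * p)) γ * h) hGγ
  have hε0 : cstk A ε ≠ 0 := by
    intro h0
    have h1 : cstk A (ε ^ p) = 0 := by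
      simp only [cstk] at h0 ⊢
      rw [map_pow, h0, zero_pow hp.ne_zero]
    rw [hε, hrdc] at h1
    exact div_ne_zero hN0 hrdD0' h1
  refine ⟨⟨cstk A ε * rd A H, mul_mem ((S28.Kf (kA A) M).algebraMap_mem ε) hmem⟩, ?_, ?_⟩
  · intro h0
    exact mul_ne_zero hε0 hrdγ (congrArg Subtype.val h0)
  · show formalN ℓ ζ' (rd A (y : LaurentSeries Qbar))
      = rd A (y : LaurentSeries Qbar) ^ e * (cstk A ε * rd A H) ^ p
    have h1 : cstk A ε ^ p = formalN ℓ ζ' (rd A (y : LaurentSeries Qbar))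
        / (rd A (y : LaurentSeries Qbar) ^ e * rd A H ^ p) := by
      rw [← hrdc, ← hε]
      simp only [cstk]
      rw [map_pow]
    have hP : rd A (y : LaurentSeries Qbar) ^ e ≠ 0 := zpow_ne_zero _ hy
    have hQ : rd A H ^ p ≠ 0 := pow_ne_zero _ hrdγ
    rw [mul_pow, h1]
    generalize formalN ℓ ζ' (rd A (y : LaurentSeries Qbar)) = X
    generalize rd A (y : LaurentSeries Qbar) ^ e = P at hP
    generalize rd A H ^ p = Q at hQ
    field_simp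

/-- **[EIS]**. -/
theorem stmt_EIS (hC : Stmt_EisCore) (hR : Stmt_RedN) (hF : Stmt_ResF) : Stmt_EIS := by
  intro p hp A hA M _ _ hpM h23 ℓ _ hℓ hℓMp ζ hζ u b g g' c c' a δ hu hb hpa j ub bb hj hub hub0
    hbb hbb0 hord
  have hℓM : ¬ ℓ ∣ M := fun h => hℓMp (h.trans (dvd_mul_right M p))
  have hℓp : ℓ ≠ p := fun h => hℓMp (h ▸ dvd_mul_left _ _)
  have hAC : IsAlgClosed (kA A) := S18G.isAlgClosed_kA A
  have hℓk : NeZero (ℓ : kA A) :=
    ⟨INJ.Inst.CS.natCast_ne_zero A hA ((Nat.coprime_primes hℓ hp).2 hℓp)⟩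
  obtain ⟨ζ₀, hζ₀⟩ := HasEnoughRootsOfUnity.exists_primitiveRoot (kA A) ℓ
  obtain ⟨ζ', rfl⟩ := hζ₀.isUnit (NeZero.ne _)
  have hζ' : IsPrimitiveRoot ζ' ℓ := IsPrimitiveRoot.coe_units_iff.mp hζ₀
  have hu0 : rd A (u : LaurentSeries Qbar) ≠ 0 := fun h => hub0 (Subtype.ext (hub.trans h))
  have hb0 : rd A (b : LaurentSeries Qbar) ≠ 0 := fun h => hbb0 (Subtype.ext (hbb.trans h))
  obtain ⟨G, hG0, hGrel⟩ := EisTop_red hR hF p hp A hA M hpM h23 ℓ hℓ hℓp ζ hζ ζ' hζ' u g a c hu hu0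
  obtain ⟨G', hG'0, hG'rel⟩ := EisTop_red hR hF p hp A hA M hpM h23 ℓ hℓ hℓp ζ hζ ζ' hζ' b g'
    ((ℓ + 1 : ℕ) : ℤ) c' (by rw [zpow_natCast]; exact hb) hb0
  rw [zpow_natCast] at hG'rel
  exact hC p hp A hA M hpM ℓ hℓ hℓM hℓp ζ' hζ' j ub bb G G' a δ hj hub0 hbb0 hG0 hG'0
    (by rw [hub]; exact hGrel) (by rw [hbb]; exact hG'rel) hpa hord

/-- **[EIS]** with the explicit Eisenstein element. -/
theorem stmt_EIS4 (hE : Stmt_EIS) (hN : Stmt_EtaN) : Stmt_EIS4 := by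
  intro p hp A hA M _ _ hpM h4 ℓ _ hℓ hℓMp ζ hζ u b g c a δ hu hb hpa j ub bb hj hub hub0 hbb hord
  have hS := CAR.Unit.serCalc CAR.Unit.listCalc (CAR.Unit.frob CAR.Unit.listCalc)
  have hbb0 : bb ≠ 0 := by
    intro h0
    have h1 : rd A (b : LaurentSeries Qbar) = etaLser (kA A) 0 (lx1 lf4 p) := by
      rw [hb, ← hS.1 A Qbar A.subtype 0 _]
      exact (rd_inc _).trans (hS.1 A (kA A) (IsLocalRing.residue A) 0 _)
    apply hS.2.2.2.2.2 (kA A) 0 (lx1 lf4 p)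
    rw [← h1, ← hbb, h0]
    rfl
  have h2M : 2 ∣ M := dvd_trans (by norm_num) h4
  refine hE p hp A hA M hpM (Or.inl h2M) ℓ hℓ hℓMp ζ hζ u b g 1 c 1 a δ hu ?_ hpa j ub bb hj hub
    hub0 hbb hbb0 hord
  have hl : ∀ e ∈ lx1 lf4 p, 0 < e.1 ∧ ¬ ℓ ∣ e.1 := by
    have hl' : ∀ e ∈ lx1 lf4 p, 0 < e.1 ∧ e.1 ∣ M * p := by
      intro e he
      simp only [lx1, lf4, CAR.Unit.scaleL, CAR.Unit.negL, List.map_cons, List.map_nil,
        List.cons_append, List.nil_append, List.mem_cons, List.not_mem_nil, or_false] at he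
      have hp0 := hp.pos
      rcases he with rfl | rfl | rfl | rfl | rfl | rfl
      · exact ⟨by positivity, by rw [mul_comm]; exact Nat.mul_dvd_mul_right h2M p⟩
      · exact ⟨by positivity, by rw [mul_one]; exact dvd_mul_left p M⟩
      · exact ⟨by positivity, by rw [mul_comm]; exact Nat.mul_dvd_mul_right h4 p⟩
      · exact ⟨by norm_num, h2M.trans (dvd_mul_right M p)⟩
      · exact ⟨by norm_num, one_dvd _⟩
      · exact ⟨by norm_num, h4.trans (dvd_mul_right M p)⟩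
    exact fun e he => ⟨(hl' e he).1, fun h => hℓMp (h.trans (hl' e he).2)⟩
  rw [hb, hN Qbar ℓ hℓ ζ hζ (lx1 lf4 p) hl]
  show _ = cst 1 * _ * (1 : LaurentSeries Qbar) ^ p
  simp only [cst]
  rw [map_one, one_mul, one_pow, mul_one]

end Fermat.Agent.MR.Eis

end
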