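import Fermat.Agent.MR.Eis.Avoid
import Fermat.Agent.MR.Eis.Conj
import Fermat.Agent.MR.Eis.Core
import Fermat.Agent.MR.Eis.EtaN
import Fermat.Agent.MR.Eis.Field
import Fermat.Agent.MR.Eis.HeckeOrd
import Fermat.Agent.MR.Eis.NMemK
import Fermat.Agent.MR.Eis.RedN
import Fermat.Agent.MR.Eis.Skel
import Fermat.Agent.MR.Eis.Top

/-!
# MR / Eis : assembly of the block [EIS] from the two remaining leaves `Stmt_Ded`, `Stmt_ResF`.
-/

set_option autoImplicit false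

namespace Fermat.Agent.MR.Eis

theorem heckeOrd_of (hD : Stmt_Ded) : Stmt_HeckeOrd :=
  stmt_HeckeOrd hD stmt_Avoid stmt_Conj (stmt_NMemK stmt_RedN) stmt_Field

theorem EIS_of (hD : Stmt_Ded) (hF : Stmt_ResF) : Stmt_EIS :=
  stmt_EIS (stmt_EisCore (heckeOrd_of hD)) stmt_RedN hF

theorem EIS4_of (hD : Stmt_Ded) (hF : Stmt_ResF) : Stmt_EIS4 :=
  stmt_EIS4 (EIS_of hD hF) stmt_EtaN

theorem skel_EIS_of (hD : Stmt_Ded) (hF : Stmt_ResF) : MR.Skel.Stmt_EIS IsB :=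
  skel_EIS (EIS4_of hD hF)

end Fermat.Agent.MR.Eis
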