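import Fermat.Agent.MR.Eis.Interface

/-!
# MR / Eis : [AVOID] lying over + a vector space over an infinite field is not a finite union of
proper subspaces (`Stmt_Avoid`)
-/

set_option autoImplicit false

namespace Fermat.Agent.MR.Eis

theorem Avoid_main (k R Ω : Type*) [Field k] [Infinite k] [CommRing R] [Algebra k R] [CommRing Ω]
    [Algebra R Ω] (ι : Type*) [Fintype ι] (c : ι → R →+* Ω)
    (hinj : Function.Injective (algebraMap R Ω)) (hint : ∀ i r, IsIntegral R (c i r))
    (V : Submodule k R) (hV : ∀ P : Ideal R, P.IsPrime → ∃ r ∈ V, r ∉ P)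
    (𝔪 : Ideal R) (h𝔪 : 𝔪.IsPrime) :
    ∃ r ∈ V, ∀ n : R, algebraMap R Ω n = ∏ i, c i r → n ∉ 𝔪 := by
  classical
  let S : Subalgebra R Ω := integralClosure R Ω
  have hinjS : Function.Injective (algebraMap R S) := by
    intro x y hxy
    exact hinj (congrArg Subtype.val hxy)
  obtain ⟨Q, -, hQp, hQ⟩ := Ideal.exists_ideal_over_prime_of_isIntegral 𝔪 (⊥ : Ideal S) (by
    rw [← RingHom.ker_eq_comap_bot, (RingHom.injective_iff_ker_eq_bot _).1 hinjS]
    exact bot_le)
  let d : ι → R →+* S := fun i => (c i).codRestrict S (fun r => hint i r)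
  have hd : ∀ i r, ((d i r : S) : Ω) = c i r := fun i r => rfl
  let P : ι → Ideal R := fun i => Q.comap (d i)
  have hP : ∀ i, (P i).IsPrime := fun i => Ideal.comap_isPrime (d i) Q
  let p : ι → Submodule k V := fun i => ((P i).restrictScalars k).comap V.subtype
  have hp : ∀ i (r : V), r ∈ p i ↔ d i (r : R) ∈ Q := fun i r => Iff.rfl
  by_contra hcon
  push Not at hcon
  have hcov : ⋃ i, (p i : Set V) = Set.univ := by
    rw [Set.eq_univ_iff_forall]
    intro r
    obtain ⟨n, hn, hn𝔪⟩ := hcon r r.2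
    have h1 : algebraMap R S n = ∏ i, d i (r : R) := by
      apply Subtype.ext
      have h2 : ((∏ i, d i (r : R) : S) : Ω) = ∏ i, c i (r : R) := by
        rw [← Subalgebra.coe_val, map_prod]
        rfl
      rw [h2, ← hn]
      rfl
    have h3 : algebraMap R S n ∈ Q := by
      rw [← hQ] at hn𝔪
      exact hn𝔪
    rw [h1, Ideal.IsPrime.prod_mem_iff] at h3
    obtain ⟨i, -, hi⟩ := h3
    exact Set.mem_iUnion.2 ⟨i, (hp i r).2 hi⟩
  obtain ⟨i, hi⟩ := Subspace.exists_eq_top_of_iUnion_eq_univ hcov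
  obtain ⟨r, hrV, hr⟩ := hV (P i) (hP i)
  apply hr
  have : (⟨r, hrV⟩ : V) ∈ p i := by
    rw [hi]
    trivial
  exact this

theorem stmt_Avoid : Stmt_Avoid := by
  intro k R Ω _ _ _ _ _ ι _ c₀ c hinj hint V hV 𝔪 h𝔪
  letI : Algebra R Ω := c₀.toAlgebra
  exact Avoid_main k R Ω ι c hinj hint V hV 𝔪 h𝔪

end Fermat.Agent.MR.Eis

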